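import Fermat.Agent.IntStr.Basic

/-!
Descent: Galois stability of a space of cusp forms gives a rational, then integral, basis.
-/

set_option autoImplicit false

noncomputable section

open CongruenceSubgroup ModularFormClass UpperHalfPlane CuspForm

namespace FLTAgent.IntStr

variable {N : ℕ} [NeZero N] {k : ℤ}

local notation "𝕊" => CuspForm (Gamma0 N) k
local notation "𝕋" => CuspForm.heckeAlgebra N k ∅

/-- Forms all whose coefficients are rational. -/
def ratForms (N : ℕ) (k : ℤ) : Set (CuspForm (Gamma0 N) k) :=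
  {f | ∀ n : ℕ, ∃ r : ℚ, qCoeff f n = (r : ℂ)}

/-- If the space is stable under a family of coefficient maps whose common fixed field is `ℚ`,
it is spanned by forms with rational coefficients. -/
theorem span_ratForms_eq_top
    (hfix : ∀ z : ℂ, (∀ r : ℚ, (r : ℂ) ≠ z) → ∃ σ : ℂ →+* ℂ, σ z ≠ z)
    (hconj : ∀ (σ : ℂ →+* ℂ) (f : 𝕊), ∃ g : 𝕊, ∀ n, qCoeff g n = σ (qCoeff f n)) :
    Submodule.span ℂ (ratForms N k) = ⊤ := by
  classical
  let supp : 𝕊 → Finset ℕ := fun f ↦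
    (Finset.range (sturmIdx N k + 1)).filter fun n ↦ qCoeff f n ≠ 0
  have hsupp : ∀ (f : 𝕊) n, n ≤ sturmIdx N k → n ∉ supp f → qCoeff f n = 0 := fun f n hn h ↦ by
    simpa [supp, Nat.lt_succ_of_le hn] using h
  have hmem : ∀ (f : 𝕊) n, n ∈ supp f → n ≤ sturmIdx N k ∧ qCoeff f n ≠ 0 := fun f n h ↦ by
    simpa [supp, Nat.lt_succ_iff] using h
  -- a nonzero form inside a given support, minimal, is proportional to a rational one
  have hmin : ∀ f : 𝕊, f ≠ 0 → ∃ g : 𝕊, g ∈ ratForms N k ∧ g ≠ 0 ∧ supp g ⊆ supp f := by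
    intro f hf
    have hex : ∃ d, ∃ g : 𝕊, g ≠ 0 ∧ supp g ⊆ supp f ∧ (supp g).card = d :=
      ⟨_, f, hf, subset_rfl, rfl⟩
    obtain ⟨g, hg0, hgsub, hgcard⟩ := Nat.find_spec hex
    obtain ⟨n₀, hn₀⟩ : (supp g).Nonempty := by
      by_contra h
      exact hg0 (eq_zero_of_qCoeff_le g fun n hn ↦ hsupp g n hn fun hm ↦ h ⟨n, hm⟩)
    obtain ⟨hn₀B, hn₀0⟩ := hmem g n₀ hn₀
    set g₁ : 𝕊 := (qCoeff g n₀)⁻¹ • g with hg₁
    have hcoef : ∀ n, qCoeff g₁ n = (qCoeff g n₀)⁻¹ * qCoeff g n := qCoeff_smul' _ g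
    have hg₁0 : g₁ ≠ 0 := by simp [hg₁, hn₀0, hg0]
    have hsub₁ : supp g₁ ⊆ supp g := fun n hn ↦ by
      obtain ⟨hB, h0⟩ := hmem _ n hn
      rw [hcoef] at h0
      simpa [supp, Nat.lt_succ_of_le hB] using right_ne_zero_of_mul h0
    refine ⟨g₁, fun n ↦ ?_, hg₁0, hsub₁.trans hgsub⟩
    by_contra! hirr
    obtain ⟨σ, hσ⟩ := hfix _ fun r h ↦ hirr r h.symm
    obtain ⟨g₂, hg₂⟩ := hconj σ g₁
    have hdiff0 : g₂ - g₁ ≠ 0 := fun h ↦ hσ <| by
      rw [← hg₂ n, sub_eq_zero.mp h]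
    have hdiff : supp (g₂ - g₁) ⊆ (supp g).erase n₀ := fun m hm ↦ by
      obtain ⟨hB, h0⟩ := hmem _ m hm
      rw [qCoeff_sub', hg₂] at h0
      refine Finset.mem_erase.mpr ⟨?_, ?_⟩
      · rintro rfl
        exact h0 (by rw [hcoef, inv_mul_cancel₀ hn₀0, map_one, sub_self])
      · by_contra hmg
        exact h0 (by rw [hcoef, hsupp g m hB hmg, mul_zero, map_zero, sub_self])
    have hle := Nat.find_min' hex
      ⟨g₂ - g₁, hdiff0, hdiff.trans ((Finset.erase_subset _ _).trans hgsub), rfl⟩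
    have := (Finset.card_le_card hdiff)
    rw [Finset.card_erase_of_mem hn₀] at this
    have hpos : 0 < (supp g).card := Finset.card_pos.mpr ⟨n₀, hn₀⟩
    omega
  have key : ∀ d, ∀ f : 𝕊, (supp f).card = d → f ∈ Submodule.span ℂ (ratForms N k) := by
    intro d
    induction d using Nat.strong_induction_on with
    | h d ih =>
    intro f hd
    rcases eq_or_ne f 0 with rfl | hf
    · exact zero_mem _
    obtain ⟨g, hg, hg0, hsub⟩ := hmin f hf
    obtain ⟨n₀, hn₀⟩ : (supp g).Nonempty := by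
      by_contra h
      exact hg0 (eq_zero_of_qCoeff_le g fun n hn ↦ hsupp g n hn fun hm ↦ h ⟨n, hm⟩)
    obtain ⟨hn₀B, hn₀0⟩ := hmem g n₀ hn₀
    set c := qCoeff f n₀ / qCoeff g n₀
    have hlt : (supp (f - c • g)).card < d := by
      rw [← hd]
      refine Finset.card_lt_card <| (Finset.ssubset_iff_of_subset fun m hm ↦ ?_).mpr
        ⟨n₀, hsub hn₀, fun h ↦ ?_⟩
      · obtain ⟨hB, h0⟩ := hmem _ m hm
        rw [qCoeff_sub', qCoeff_smul'] at h0
        by_contra hmf
        exact h0 (by rw [hsupp f m hB hmf, hsupp g m hB fun h ↦ hmf (hsub h)]; ring)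
      · obtain ⟨-, h0⟩ := hmem _ _ h
        rw [qCoeff_sub', qCoeff_smul', div_mul_cancel₀ _ hn₀0, sub_self] at h0
        exact h0 rfl
    have hrec := ih _ hlt _ rfl
    simpa using add_mem hrec (Submodule.smul_mem _ c (Submodule.subset_span hg))
  exact eq_top_iff.mpr fun f _ ↦ key _ f rfl

theorem ratCast_mem_qCoeff_heckeAlgebra (t : 𝕋) {f : 𝕊} (hf : f ∈ ratForms N k) :
    (t : Module.End ℂ 𝕊) f ∈ ratForms N k := by
  obtain ⟨t, ht⟩ := t
  simp only
  induction ht using Algebra.adjoin_induction generalizing f with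
  | mem x hx =>
    choose r hr using hf
    rcases hx with ⟨p, hp, hpN, -, rfl⟩ | ⟨p, hpN, hp, -, rfl⟩ <;> intro n
    · rw [CuspForm.coe_heckeTLin_apply,
        ModularFormClass.qCoeff_heckeT f (one_mem_periods N) hp.ne_zero,
        ModularForm.coeffHeckeT_apply]
      refine ⟨r (n * p) + if p ∣ n then (p : ℚ) ^ (k - 1) * r (n / p) else 0, ?_⟩
      split_ifs <;> push_cast <;> simp [hr]
    · rw [CuspForm.coe_heckeULin_apply,
        ModularFormClass.qCoeff_heckeU f (one_mem_periods N) hp.ne_zero,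
        ModularForm.coeffHeckeU_apply]
      exact ⟨r (n * p), hr _⟩
  | algebraMap c =>
    intro n
    obtain ⟨r, hr⟩ := hf n
    refine ⟨c * r, ?_⟩
    rw [Algebra.algebraMap_eq_smul_one, LinearMap.smul_apply, Module.End.one_apply,
      qCoeff_zsmul', hr]
    push_cast
    rfl
  | add x y _ _ hx hy =>
    intro n
    obtain ⟨a, ha⟩ := hx hf n
    obtain ⟨b, hb⟩ := hy hf n
    exact ⟨a + b, by rw [LinearMap.add_apply, qCoeff_add', ha, hb]; push_cast; rfl⟩
  | mul x y _ _ hx hy =>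
    intro n
    exact hx (hy hf) n

/-- A rational basis and finiteness of the Hecke algebra give an integral structure. -/
theorem hasIntegralStructure_of_span_ratForms (hk : 1 ≤ k)
    (hfin : Module.Finite ℤ 𝕋) (hQ : Submodule.span ℂ (ratForms N k) = ⊤) :
    HasIntegralStructure N k := by
  rw [HasIntegralStructure, eq_top_iff, ← hQ, Submodule.span_le]
  intro f hf
  obtain ⟨n, t, ht⟩ := Module.Finite.exists_fin (R := ℤ) (M := 𝕋)
  choose r hr using fun i ↦ ratCast_mem_qCoeff_heckeAlgebra (t i) hf 1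
  obtain ⟨⟨D, hD⟩, hDint⟩ :=
    IsLocalization.exist_integer_multiples_of_finite (nonZeroDivisors ℤ) r
  choose z hz using hDint
  have hz' : ∀ i, (z i : ℂ) = (D : ℂ) * qCoeff ((t i : Module.End ℂ 𝕊) f) 1 := fun i ↦ by
    rw [hr i]
    have h1 : (z i : ℚ) = D * r i := by simpa using hz i
    exact_mod_cast congrArg (fun x : ℚ ↦ (x : ℂ)) h1
  have hD0 : (D : ℂ) ≠ 0 := by exact_mod_cast nonZeroDivisors.ne_zero hD
  have hDf : (D : ℂ) • f ∈ intLattice N k := by
    refine (mem_intLattice_iff _).mpr fun m ↦ ?_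
    rcases eq_or_ne m 0 with rfl | hm
    · exact ⟨0, (qCoeff_index_zero _).trans Int.cast_zero.symm⟩
    obtain ⟨s, hs, hspec⟩ := exists_heckeAlgebra_qCoeff_one (N := N) hk m hm
    obtain ⟨c, hc⟩ := (Submodule.mem_span_range_iff_exists_fun ℤ).mp
      (ht ▸ Submodule.mem_top : (⟨s, hs⟩ : 𝕋) ∈ Submodule.span ℤ (Set.range t))
    have hc' : ∑ i, c i • (t i : Module.End ℂ 𝕊) = s := by
      simpa using congrArg Subtype.val hc
    refine ⟨∑ i, c i * z i, ?_⟩
    rw [qCoeff_smul', ← hspec f, ← hc', LinearMap.sum_apply, qCoeff_sum', Finset.mul_sum]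
    push_cast
    refine Finset.sum_congr rfl fun i _ ↦ ?_
    rw [LinearMap.smul_apply, qCoeff_zsmul', hz']
    ring
  have := Submodule.smul_mem _ (D : ℂ)⁻¹ (Submodule.subset_span (R := ℂ) hDf)
  rwa [inv_smul_smul₀ hD0] at this

end FLTAgent.IntStr
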