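import Fermat.Agent.IntStr.Basic
import Fermat.Agent.ModSym.Finite

/-!
Finiteness of the weight two Hecke algebra used by the integral structure
(`moduleFinite_heckeAlgebra_two`, from modular symbols).
-/

set_option autoImplicit false

noncomputable section

namespace FLTAgent.IntStr

theorem moduleFinite_heckeAlgebra_two (N : ℕ) [NeZero N] :
    Module.Finite ℤ (CuspForm.heckeAlgebra N 2 ∅) :=
  FLTAgent.ModSym.moduleFinite_heckeAlgebra_all N 2 ∅

end FLTAgent.IntStr
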