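import Fermat.Agent.IntStr.GoodFun

/-!
Symmetric functions of finite orbits of functions under `SL(2, ℤ)` are level one forms.
-/

set_option autoImplicit false

noncomputable section

open UpperHalfPlane Filter Topology Matrix.SpecialLinearGroup
open scoped Manifold ModularForm MatrixGroups

namespace FLTAgent.IntStr

theorem prod_slash_SL {ι : Type*} (k : ℤ) (γ : SL(2, ℤ)) (f : ι → ℍ → ℂ) (s : Finset ι) :
    (∏ i ∈ s, f i) ∣[k * s.card] γ = ∏ i ∈ s, f i ∣[k] γ := by
  simp [ModularForm.SL_slash, ModularForm.prod_slash]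

theorem pow_slash_SL (k : ℤ) (γ : SL(2, ℤ)) (f : ℍ → ℂ) (n : ℕ) :
    (f ^ n) ∣[k * n] γ = (f ∣[k] γ) ^ n := by
  simpa using prod_slash_SL k γ (fun _ : Fin n ↦ f) Finset.univ

/-- A finite family of holomorphic functions permuted by the weight `k` action of `SL(2, ℤ)`. -/
structure EquivariantFamily (ι : Type) (π : SL(2, ℤ) → Equiv.Perm ι) (k : ℤ) where
  /-- the members -/
  fn : ι → ℍ → ℂ
  slash_eq : ∀ (γ : SL(2, ℤ)) i, fn i ∣[k] γ = fn (π γ i)
  mdiff : ∀ i, MDiff (fn i)
  bdd : ∀ i, IsBoundedAtImInfty (fn i)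

/-- Build a level one form from invariance, holomorphy and boundedness at infinity. -/
def levelOneOfInvariant {k : ℤ} (F : ℍ → ℂ) (hinv : ∀ γ : SL(2, ℤ), F ∣[k] γ = F)
    (hdiff : MDiff F) (hbdd : IsBoundedAtImInfty F) : ModularForm 𝒮ℒ k where
  toFun := F
  slash_action_eq' := fun _ ⟨γ, hγ⟩ ↦ hγ ▸ hinv γ
  holo' := hdiff
  bdd_at_cusps' {c} hc := by
    rw [Subgroup.IsArithmetic.isCusp_iff_isCusp_SL2Z] at hc
    rw [OnePoint.isBoundedAt_iff_forall_SL2Z hc]
    intro γ _
    rw [hinv γ]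
    exact hbdd

theorem isBoundedAtImInfty_sum {ι : Type*} (s : Finset ι) (f : ι → ℍ → ℂ)
    (h : ∀ i ∈ s, IsBoundedAtImInfty (f i)) : IsBoundedAtImInfty (∑ i ∈ s, f i) := by
  classical
  induction s using Finset.induction_on with
  | empty => rw [Finset.sum_empty]; exact Filter.const_boundedAtFilter atImInfty (0 : ℂ)
  | insert i s hi ih =>
    rw [Finset.sum_insert hi]
    exact Filter.BoundedAtFilter.add (h i (Finset.mem_insert_self _ _))
      (ih fun j hj ↦ h j (Finset.mem_insert_of_mem hj))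

theorem isBoundedAtImInfty_prod {ι : Type*} (s : Finset ι) (f : ι → ℍ → ℂ)
    (h : ∀ i ∈ s, IsBoundedAtImInfty (f i)) : IsBoundedAtImInfty (∏ i ∈ s, f i) := by
  classical
  induction s using Finset.induction_on with
  | empty => rw [Finset.prod_empty]; exact Filter.const_boundedAtFilter atImInfty (1 : ℂ)
  | insert i s hi ih =>
    rw [Finset.prod_insert hi]
    exact Filter.BoundedAtFilter.mul (h i (Finset.mem_insert_self _ _))
      (ih fun j hj ↦ h j (Finset.mem_insert_of_mem hj))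

theorem mdifferentiable_sum {ι : Type*} (s : Finset ι) (f : ι → ℍ → ℂ)
    (h : ∀ i ∈ s, MDiff (f i)) : MDiff (∑ i ∈ s, f i) := by
  classical
  induction s using Finset.induction_on with
  | empty => rw [Finset.sum_empty]; exact mdifferentiable_const
  | insert i s hi ih =>
    rw [Finset.sum_insert hi]
    exact (h i (Finset.mem_insert_self _ _)).add (ih fun j hj ↦ h j (Finset.mem_insert_of_mem hj))

theorem mdifferentiable_prod {ι : Type*} (s : Finset ι) (f : ι → ℍ → ℂ)
    (h : ∀ i ∈ s, MDiff (f i)) : MDiff (∏ i ∈ s, f i) := by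
  classical
  induction s using Finset.induction_on with
  | empty => rw [Finset.prod_empty]; exact mdifferentiable_const
  | insert i s hi ih =>
    rw [Finset.prod_insert hi]
    exact (h i (Finset.mem_insert_self _ _)).mul (ih fun j hj ↦ h j (Finset.mem_insert_of_mem hj))

variable {ι : Type} [Fintype ι] {π : SL(2, ℤ) → Equiv.Perm ι} {k w : ℤ}

/-- The `s`-th elementary symmetric function of a family. -/
def esymmForm (v : EquivariantFamily ι π w) (s : ℕ) : ModularForm 𝒮ℒ (w * s) :=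
  levelOneOfInvariant (∑ T ∈ Finset.univ.powersetCard s, ∏ j ∈ T, v.fn j)
    (fun γ ↦ by
      classical
      rw [SlashAction.sum_slash]
      refine Finset.sum_equiv (π γ).finsetCongr (fun T ↦ by simp) fun T hT ↦ ?_
      obtain ⟨-, rfl⟩ := Finset.mem_powersetCard.mp hT
      rw [prod_slash_SL]
      simp [v.slash_eq])
    (mdifferentiable_sum _ _ fun T _ ↦ mdifferentiable_prod _ _ fun j _ ↦ v.mdiff j)
    (isBoundedAtImInfty_sum _ _ fun T _ ↦ isBoundedAtImInfty_prod _ _ fun j _ ↦ v.bdd j)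

theorem coe_esymmForm (v : EquivariantFamily ι π w) (s : ℕ) :
    ⇑(esymmForm v s) = ∑ T ∈ Finset.univ.powersetCard s, ∏ j ∈ T, v.fn j := rfl

/-- The interpolation coefficients `∑ᵢ uᵢ e_s(v_j : j ≠ i)`. -/
def interpForm [DecidableEq ι] (u : EquivariantFamily ι π k) (v : EquivariantFamily ι π w) (s : ℕ) :
    ModularForm 𝒮ℒ (k + w * s) :=
  levelOneOfInvariant
    (∑ i, u.fn i * ∑ T ∈ (Finset.univ.erase i).powersetCard s, ∏ j ∈ T, v.fn j)
    (fun γ ↦ by
      rw [SlashAction.sum_slash]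
      refine Fintype.sum_equiv (π γ) _ _ fun i ↦ ?_
      rw [ModularForm.mul_slash_SL2, u.slash_eq, SlashAction.sum_slash]
      congr 1
      refine Finset.sum_equiv (π γ).finsetCongr (fun T ↦ by
        simp [Finset.mem_powersetCard, Finset.subset_erase]) fun T hT ↦ ?_
      obtain ⟨-, rfl⟩ := Finset.mem_powersetCard.mp hT
      rw [prod_slash_SL]
      simp [v.slash_eq])
    (mdifferentiable_sum _ _ fun i _ ↦ (u.mdiff i).mul
      (mdifferentiable_sum _ _ fun T _ ↦ mdifferentiable_prod _ _ fun j _ ↦ v.mdiff j))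
    (isBoundedAtImInfty_sum _ _ fun i _ ↦ Filter.BoundedAtFilter.mul (u.bdd i)
      (isBoundedAtImInfty_sum _ _ fun T _ ↦ isBoundedAtImInfty_prod _ _ fun j _ ↦ v.bdd j))

theorem coe_interpForm [DecidableEq ι] (u : EquivariantFamily ι π k)
    (v : EquivariantFamily ι π w) (s : ℕ) :
    ⇑(interpForm u v s) =
      ∑ i, u.fn i * ∑ T ∈ (Finset.univ.erase i).powersetCard s, ∏ j ∈ T, v.fn j := rfl

theorem prod_sub_eq_sum_esymm {A J : Type*} [CommRing A] [DecidableEq J] (x : A) (y : J → A)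
    (t : Finset J) :
    ∏ j ∈ t, (x - y j) = ∑ s ∈ Finset.range (t.card + 1),
      (-1) ^ s * x ^ (t.card - s) * ∑ T ∈ t.powersetCard s, ∏ j ∈ T, y j := by
  rw [Finset.prod_congr rfl fun j _ ↦ show x - y j = -y j + x by ring, Finset.prod_add,
    Finset.sum_powerset]
  refine Finset.sum_congr rfl fun s _ ↦ ?_
  rw [Finset.mul_sum]
  refine Finset.sum_congr rfl fun T hT ↦ ?_
  obtain ⟨hsub, hcard⟩ := Finset.mem_powersetCard.mp hT
  rw [Finset.prod_const, Finset.card_sdiff_of_subset hsub, hcard, Finset.prod_neg, hcard]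
  ring

/-- `∏ⱼ (v₀ - vⱼ) = 0` expanded. -/
theorem esymm_relation (v : EquivariantFamily ι π w) (i₀ : ι) :
    ∑ s ∈ Finset.range (Fintype.card ι + 1),
      (-1) ^ s * v.fn i₀ ^ (Fintype.card ι - s) * ⇑(esymmForm v s) = 0 := by
  classical
  simp only [coe_esymmForm]
  rw [← Finset.card_univ, ← prod_sub_eq_sum_esymm]
  exact Finset.prod_eq_zero (Finset.mem_univ i₀) (sub_self _)

/-- The interpolation identity at `v₀`. -/
theorem interp_relation [DecidableEq ι] (u : EquivariantFamily ι π k)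
    (v : EquivariantFamily ι π w) (i₀ : ι) :
    ∑ s ∈ Finset.range (Fintype.card ι),
      (-1) ^ s * v.fn i₀ ^ (Fintype.card ι - 1 - s) * ⇑(interpForm u v s) =
      u.fn i₀ * ∏ j ∈ Finset.univ.erase i₀, (v.fn i₀ - v.fn j) := by
  have hcard : ∀ i : ι, (Finset.univ.erase i).card + 1 = Fintype.card ι := fun i ↦ by
    rw [Finset.card_erase_add_one (Finset.mem_univ i), Finset.card_univ]
  have hsingle : ∑ i, u.fn i * ∏ j ∈ Finset.univ.erase i, (v.fn i₀ - v.fn j) =
      u.fn i₀ * ∏ j ∈ Finset.univ.erase i₀, (v.fn i₀ - v.fn j) := by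
    refine Finset.sum_eq_single i₀ (fun i _ hi ↦ ?_) (by simp)
    rw [Finset.prod_eq_zero (Finset.mem_erase.mpr ⟨Ne.symm hi, Finset.mem_univ i₀⟩) (sub_self _),
      mul_zero]
  rw [← hsingle]
  simp only [prod_sub_eq_sum_esymm, coe_interpForm, Finset.mul_sum]
  conv_rhs => rw [Finset.sum_congr rfl fun i _ ↦ by rw [hcard i]]
  rw [Finset.sum_comm]
  refine Finset.sum_congr rfl fun i _ ↦ Finset.sum_congr rfl fun s _ ↦ Finset.sum_congr rfl fun T _ ↦ ?_
  rw [show (Finset.univ.erase i).card = Fintype.card ι - 1 by have := hcard i; omega]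
  ring

end FLTAgent.IntStr
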