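import Fermat.Agent.IntStr.LevelOne
import Fermat.Agent.IntStr.Orbit

/-!
Coefficientwise conjugation of modular forms on a group with a separating rational form.
-/

set_option autoImplicit false

noncomputable section

open UpperHalfPlane Filter Topology Matrix.SpecialLinearGroup ModularForm
open scoped Manifold ModularForm MatrixGroups

namespace FLTAgent.IntStr

variable {𝒢 : Subgroup (GL (Fin 2) ℝ)} {k : ℤ}

/-- The index set: cosets of `𝒢` in `SL(2, ℤ)`. -/
abbrev cosets (𝒢 : Subgroup (GL (Fin 2) ℝ)) : Type := 𝒮ℒ ⧸ 𝒢.subgroupOf 𝒮ℒ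

/-- The permutation of cosets by which `γ` acts on translates. -/
def cosetPerm (𝒢 : Subgroup (GL (Fin 2) ℝ)) (γ : SL(2, ℤ)) : Equiv.Perm (cosets 𝒢) :=
  MulAction.toPerm ((⟨mapGL ℝ γ, ⟨γ, rfl⟩⟩ : 𝒮ℒ)⁻¹)

/-- The family of translates of a form. -/
def translatesFamily {F : Type*} [FunLike F ℍ ℂ] [𝒢.IsArithmetic] [ModularFormClass F 𝒢 k]
    (f : F) : EquivariantFamily (cosets 𝒢) (cosetPerm 𝒢) k where
  fn := SlashInvariantForm.quotientFunc (ℋ := 𝒮ℒ) f
  slash_eq γ q := by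
    rw [ModularForm.SL_slash]
    exact SlashInvariantForm.quotientFunc_smul (ℋ := 𝒮ℒ) f (h := mapGL ℝ γ) ⟨γ, rfl⟩ q
  mdiff q := by
    induction q using Quotient.inductionOn with
    | h r => exact (ModularForm.translate f r.val⁻¹).holo'
  bdd q := by
    induction q using Quotient.inductionOn with
    | h r =>
      obtain ⟨_, γ, rfl⟩ := r
      rw [SlashInvariantForm.quotientFunc_mk]
      show IsBoundedAtImInfty ((⇑f : ℍ → ℂ) ∣[k] (mapGL ℝ γ)⁻¹)
      rw [← map_inv]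
      exact ModularFormClass.bdd_at_infty_slash f γ⁻¹

theorem translatesFamily_one {F : Type*} [FunLike F ℍ ℂ] [𝒢.IsArithmetic]
    [ModularFormClass F 𝒢 k] (f : F) :
    (translatesFamily (𝒢 := 𝒢) f).fn (QuotientGroup.mk 1) = ⇑f := by
  show SlashInvariantForm.quotientFunc f (Quotient.mk _ (1 : 𝒮ℒ)) = _
  simp

/-- The constant family. -/
def oneFamily (𝒢 : Subgroup (GL (Fin 2) ℝ)) :
    EquivariantFamily (cosets 𝒢) (cosetPerm 𝒢) 0 where
  fn _ := 1
  slash_eq γ _ := is_invariant_one γ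
  mdiff _ := mdifferentiable_const
  bdd _ := Filter.const_boundedAtFilter atImInfty (1 : ℂ)

/-- A choice of conjugate of a level one form, as an element of the good ring. -/
def levelOneConj (σ : ℂ →+* ℂ) {j : ℤ} (c : ModularForm 𝒮ℒ j) : ModularForm 𝒮ℒ j :=
  (exists_galConj_levelOne σ j c).choose

theorem levelOneConj_spec (σ : ℂ →+* ℂ) {j : ℤ} (c : ModularForm 𝒮ℒ j) :
    qExpansion 1 (levelOneConj σ c) = PowerSeries.map σ (qExpansion 1 c) :=
  (exists_galConj_levelOne σ j c).choose_spec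

/-- A level one form in the good ring. -/
def goodOf {j : ℤ} (c : ModularForm 𝒮ℒ j) : goodSubring :=
  ⟨⇑c, modularForm_mem_goodSubring one_mem_strictPeriods_SL c⟩

theorem qE_levelOneConj (σ : ℂ →+* ℂ) {j : ℤ} (c : ModularForm 𝒮ℒ j) :
    qE (goodOf (levelOneConj σ c)) = PowerSeries.map σ (qE (goodOf c)) :=
  levelOneConj_spec σ c

/-- General conjugation theorem. -/
theorem exists_galConj_core [𝒢.IsArithmetic] (hle : 𝒢 ≤ 𝒮ℒ) (h1 : (1 : ℝ) ∈ 𝒢.strictPeriods)
    (σ : ℂ →+* ℂ) {w : ℤ} (F : ModularForm 𝒢 w)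
    (hFσ : PowerSeries.map σ (qExpansion 1 F) = qExpansion 1 F)
    (hsep : ∀ γ : SL(2, ℤ), mapGL ℝ γ ∉ 𝒢 → (⇑F : ℍ → ℂ) ∣[w] γ ≠ ⇑F)
    (f : ModularForm 𝒢 k) :
    ∃ g : ModularForm 𝒢 k, qExpansion 1 g = PowerSeries.map σ (qExpansion 1 f) ∧
      ((∀ γ : SL(2, ℤ), IsZeroAtImInfty ((⇑f : ℍ → ℂ) ∣[k] γ)) →
        ∀ γ : SL(2, ℤ), IsZeroAtImInfty ((⇑g : ℍ → ℂ) ∣[k] γ)) := by
  classical
  let : Fintype (cosets 𝒢) := Fintype.ofFinite _
  set i₀ : cosets 𝒢 := QuotientGroup.mk 1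
  set m := Fintype.card (cosets 𝒢)
  have hm : 1 ≤ m := Fintype.card_pos_iff.mpr ⟨i₀⟩
  set u := translatesFamily (𝒢 := 𝒢) f
  set v := translatesFamily (𝒢 := 𝒢) F
  set o := oneFamily 𝒢
  let fG : goodSubring := ⟨⇑f, modularForm_mem_goodSubring h1 f⟩
  let FG : goodSubring := ⟨⇑F, modularForm_mem_goodSubring h1 F⟩
  let comb : (ℕ → goodSubring) → goodSubring := fun c ↦
    ∑ s ∈ Finset.range m, (-1) ^ s * FG ^ (m - 1 - s) * c s
  -- the original numerator and denominator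
  let N : goodSubring := comb fun s ↦ goodOf (interpForm u v s)
  let D : goodSubring := comb fun s ↦ goodOf (interpForm o v s)
  let N' : goodSubring := comb fun s ↦ goodOf (levelOneConj σ (interpForm u v s))
  let D' : goodSubring := comb fun s ↦ goodOf (levelOneConj σ (interpForm o v s))
  have hcomb : ∀ {j : ℤ} (x : EquivariantFamily (cosets 𝒢) (cosetPerm 𝒢) j),
      ((comb fun s ↦ goodOf (interpForm x v s) : goodSubring) : ℍ → ℂ) =
        x.fn i₀ * ∏ j ∈ Finset.univ.erase i₀, (v.fn i₀ - v.fn j) := by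
    intro j x
    rw [← interp_relation x v i₀]
    simp [comb, goodOf, FG, v, i₀, translatesFamily_one, m]
  have hDval : (D : ℍ → ℂ) = ∏ j ∈ Finset.univ.erase i₀, (v.fn i₀ - v.fn j) :=
    (hcomb o).trans (one_mul _)
  have hND : N = fG * D := by
    refine Subtype.ext ?_
    rw [Subring.coe_mul, hDval, show (N : ℍ → ℂ) = _ from hcomb u]
    simp [u, i₀, translatesFamily_one, fG]
  have hD0 : D ≠ 0 := by
    intro h
    have h' : ∏ j ∈ Finset.univ.erase i₀, (v.fn i₀ - v.fn j) = 0 := by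
      rw [← hDval, h]; rfl
    rw [UpperHalfPlane.prod_eq_zero_iff (fun j _ ↦ (v.mdiff i₀).sub (v.mdiff j))] at h'
    obtain ⟨j, hj, hj0⟩ := h'
    obtain ⟨r, rfl⟩ := QuotientGroup.mk_surjective j
    obtain ⟨_, γ, rfl⟩ := r
    refine hsep γ⁻¹ (fun hmem ↦ (Finset.mem_erase.mp hj).1 ?_) ?_
    · rw [QuotientGroup.eq, Subgroup.mem_subgroupOf]
      simpa using hmem
    · rw [sub_eq_zero] at hj0
      simp only [v, i₀, translatesFamily_one] at hj0
      conv_rhs => rw [hj0]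
      show (⇑F : ℍ → ℂ) ∣[w] γ⁻¹ =
        SlashInvariantForm.quotientFunc F (Quotient.mk _ (⟨mapGL ℝ γ, ⟨γ, rfl⟩⟩ : 𝒮ℒ))
      rw [SlashInvariantForm.quotientFunc_mk]
      show (⇑F : ℍ → ℂ) ∣[w] mapGL ℝ γ⁻¹ = (⇑F : ℍ → ℂ) ∣[w] (mapGL ℝ γ)⁻¹
      rw [map_inv]
  have hFG : PowerSeries.map σ (qE FG) = qE FG := hFσ
  have hqcomb : ∀ (c c' : ℕ → goodSubring), (∀ s, qE (c' s) = PowerSeries.map σ (qE (c s))) →
      qE (comb c') = PowerSeries.map σ (qE (comb c)) := by
    intro c c' h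
    simp only [comb, map_sum, map_mul, map_pow, map_neg, map_one, h, hFG]
  have hqN : qE N' = PowerSeries.map σ (qE fG) * qE D' := by
    rw [hqcomb (fun s ↦ goodOf (interpForm o v s)) _ (fun s ↦ qE_levelOneConj σ _), ← map_mul,
      ← map_mul, show fG * comb (fun s ↦ goodOf (interpForm o v s)) = N from hND.symm]
    exact hqcomb _ _ fun s ↦ qE_levelOneConj σ _
  have hqD : qE D' = PowerSeries.map σ (qE D) := hqcomb _ _ fun s ↦ qE_levelOneConj σ _
  have hD'0 : D' ≠ 0 := by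
    intro h
    rw [h, map_zero] at hqD
    refine hD0 (qE_injective ?_)
    rw [map_zero]
    exact PowerSeries.map_injective σ σ.injective (hqD.symm.trans (map_zero _).symm)
  -- the monic relation
  let e : ℕ → goodSubring := fun s ↦ goodOf (esymmForm u s)
  let e' : ℕ → goodSubring := fun s ↦ goodOf (levelOneConj σ (esymmForm u s))
  have hrel : ∑ s ∈ Finset.range (m + 1), (-1) ^ s * fG ^ (m - s) * e s = 0 := by
    refine Subtype.ext ?_
    rw [ZeroMemClass.coe_zero, ← esymm_relation u i₀]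
    simp [e, goodOf, fG, u, i₀, translatesFamily_one, m]
  have hrel' : ∑ s ∈ Finset.range (m + 1), (-1) ^ s * N' ^ (m - s) * D' ^ s * e' s = 0 := by
    refine qE_injective ?_
    have h := congrArg (fun x ↦ qE D' ^ m * PowerSeries.map σ (qE x)) hrel
    simp only [map_sum, map_mul, map_pow, map_neg, map_one, map_zero, mul_zero,
      Finset.mul_sum] at h
    simp only [map_sum, map_mul, map_pow, map_neg, map_one, map_zero]
    rw [← h]
    refine Finset.sum_congr rfl fun s hs ↦ ?_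
    have hsm : s ≤ m := Nat.lt_succ_iff.mp (Finset.mem_range.mp hs)
    rw [qE_levelOneConj, hqN, mul_pow, ← Nat.sub_add_cancel hsm, pow_add,
      Nat.sub_add_cancel hsm]
    ring
  have he'0 : e' 0 = 1 := by
    refine qE_injective ?_
    rw [qE_levelOneConj, map_one]
    have : goodOf (esymmForm u 0) = 1 := Subtype.ext (by
      show (⇑(esymmForm u 0) : ℍ → ℂ) = 1
      rw [coe_esymmForm]; simp)
    rw [this, map_one, map_one]
  let a : ℕ → ℍ → ℂ := fun s ↦ (-1 : ℂ) ^ (s + 1) • (e' (s + 1) : ℍ → ℂ)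
  obtain ⟨G, hGd, hGeq⟩ := exists_mdifferentiable_mul_eq (m := m) (N := (N' : ℍ → ℂ))
    (D := (D' : ℍ → ℂ)) (a := a) N'.2.2.1 D'.2.2.1
    (fun h ↦ hD'0 (Subtype.ext h))
    (fun s _ ↦ (smul_mem_goodSubring _ (e' (s + 1)).2).2.1)
    (fun z hz ↦ by
      have h := congrFun (congrArg Subtype.val hrel') z
      simp only [AddSubmonoidClass.coe_finsetSum, Subring.coe_mul, SubmonoidClass.coe_pow,
        Subring.coe_neg, Subring.coe_one, ZeroMemClass.coe_zero, Finset.sum_apply, Pi.mul_apply,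
        Pi.pow_apply, Pi.neg_apply, Pi.one_apply, Pi.zero_apply] at h
      rw [Finset.sum_range_succ', he'0] at h
      simp only [Subring.coe_one, Pi.one_apply, pow_zero, Nat.sub_zero, one_mul, mul_one] at h
      have hDm : (D' : ℍ → ℂ) z ^ m ≠ 0 := pow_ne_zero _ hz
      refine mul_left_cancel₀ hDm ?_
      rw [mul_zero, ← h, mul_add, Finset.mul_sum, add_comm]
      congr 1
      · refine Finset.sum_congr rfl fun s hs ↦ ?_
        have hsm : s + 1 ≤ m := Finset.mem_range.mp hs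
        simp only [a, Pi.smul_apply, smul_eq_mul, div_pow]
        rw [← pow_sub_mul_pow ((D' : ℍ → ℂ) z) hsm]
        field_simp
      · rw [← mul_pow, mul_div_cancel₀ _ hz])
  -- invariance
  set W : ℤ := w * ((m - 1 : ℕ) : ℤ)
  have hslashF : ∀ γ : SL(2, ℤ), mapGL ℝ γ ∈ 𝒢 → ∀ n : ℕ,
      ((⇑F : ℍ → ℂ) ^ n) ∣[w * n] γ = (⇑F : ℍ → ℂ) ^ n := by
    intro γ hγ n
    rw [pow_slash_SL]
    congr 1
    exact SlashInvariantFormClass.slash_action_eq F _ hγ
  have hcomb_inv : ∀ {j : ℤ} (c : (s : ℕ) → ModularForm 𝒮ℒ (j + w * s)) (γ : SL(2, ℤ)),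
      mapGL ℝ γ ∈ 𝒢 → ((comb fun s ↦ goodOf (c s) : goodSubring) : ℍ → ℂ) ∣[j + W] γ =
        ((comb fun s ↦ goodOf (c s) : goodSubring) : ℍ → ℂ) := by
    intro j c γ hγ
    simp only [comb, AddSubmonoidClass.coe_finsetSum, Subring.coe_mul, SubmonoidClass.coe_pow,
      Subring.coe_neg, Subring.coe_one, goodOf, FG, SlashAction.sum_slash]
    refine Finset.sum_congr rfl fun s hs ↦ ?_
    have hsm := Finset.mem_range.mp hs
    have hconst : ((-1 : ℍ → ℂ) ^ s) = ((-1 : ℂ) ^ s) • (1 : ℍ → ℂ) := by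
      ext z; simp
    rw [hconst, smul_one_mul, smul_mul_assoc, ModularForm.SL_smul_slash]
    congr 1
    rw [show j + W = w * ((m - 1 - s : ℕ) : ℤ) + (j + w * s) by
      simp only [W]; push_cast [Nat.cast_sub (show s ≤ m - 1 by omega)]; ring]
    rw [ModularForm.mul_slash_SL2, hslashF γ hγ]
    congr 1
    exact SlashInvariantFormClass.slash_action_eq (c s) _ ⟨γ, rfl⟩
  have hGinv : ∀ γ : SL(2, ℤ), mapGL ℝ γ ∈ 𝒢 → G ∣[k] γ = G := by
    intro γ hγ
    have hN : (N' : ℍ → ℂ) ∣[k + W] γ = N' :=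
      hcomb_inv (fun s ↦ levelOneConj σ (interpForm u v s)) γ hγ
    have hD : (D' : ℍ → ℂ) ∣[W] γ = D' := by
      have h := hcomb_inv (fun s ↦ levelOneConj σ (interpForm o v s)) γ hγ
      rwa [zero_add] at h
    have hGD : G * (D' : ℍ → ℂ) = (N' : ℍ → ℂ) := funext hGeq
    rw [← hGD, ModularForm.mul_slash_SL2, hD] at hN
    have hzero : (G ∣[k] γ - G) * (D' : ℍ → ℂ) = 0 := by rw [sub_mul, hN, sub_self]
    rcases (UpperHalfPlane.mul_eq_zero_iff ((hGd.slash k _).sub hGd) D'.2.2.1).mp hzero with h | h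
    · exact sub_eq_zero.mp h
    · exact absurd (Subtype.ext h) hD'0
  have hGrel : ∑ s ∈ Finset.range (m + 1), (-1 : ℂ) ^ s • (G ^ (m - s) * (e' s : ℍ → ℂ)) = 0 := by
    have hdiff : MDiff (∑ s ∈ Finset.range (m + 1),
        (-1 : ℂ) ^ s • (G ^ (m - s) * (e' s : ℍ → ℂ))) := by
      refine mdifferentiable_sum _ _ fun s _ ↦ ?_
      exact ((hGd.pow _).mul (e' s).2.2.1).const_smul _
    have hprod : (∑ s ∈ Finset.range (m + 1), (-1 : ℂ) ^ s • (G ^ (m - s) * (e' s : ℍ → ℂ))) *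
        (D' : ℍ → ℂ) ^ m = 0 := by
      rw [show (0 : ℍ → ℂ) = ((0 : goodSubring) : ℍ → ℂ) from rfl, ← hrel', Finset.sum_mul]
      simp only [AddSubmonoidClass.coe_finsetSum, Subring.coe_mul, SubmonoidClass.coe_pow,
        Subring.coe_neg, Subring.coe_one]
      refine Finset.sum_congr rfl fun s hs ↦ funext fun z ↦ ?_
      have hsm : s ≤ m := Nat.lt_succ_iff.mp (Finset.mem_range.mp hs)
      simp only [Pi.mul_apply, Pi.smul_apply, Pi.pow_apply, Pi.neg_apply, Pi.one_apply,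
        smul_eq_mul, ← hGeq z]
      rw [← pow_sub_mul_pow ((D' : ℍ → ℂ) z) hsm]
      ring
    rcases (UpperHalfPlane.mul_eq_zero_iff hdiff (D'.2.2.1.pow m)).mp hprod with h | h
    · exact h
    · exfalso
      have hpow : D' ^ m = 0 := Subtype.ext (by rw [SubmonoidClass.coe_pow]; exact h)
      have h0 := congrArg qE hpow
      rw [map_pow, map_zero] at h0
      exact hD'0 (qE_injective ((eq_zero_of_pow_eq_zero h0).trans (map_zero _).symm))
  have hslashrel : ∀ (γ : SL(2, ℤ)) (z : ℍ), (G ∣[k] γ) z ^ m +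
      ∑ s ∈ Finset.range m, a s z * (G ∣[k] γ) z ^ (m - (s + 1)) = 0 := by
    intro γ z
    have h := congrArg (fun x : ℍ → ℂ ↦ (x ∣[k * (m : ℤ)] γ) z) hGrel
    simp only [SlashAction.sum_slash, SlashAction.zero_slash, ModularForm.SL_smul_slash,
      Finset.sum_apply, Pi.zero_apply] at h
    have hterm : ∀ s ∈ Finset.range (m + 1),
        (((-1 : ℂ) ^ s) • ((G ^ (m - s) * (e' s : ℍ → ℂ)) ∣[k * (m : ℤ)] γ)) z =
        (-1 : ℂ) ^ s * ((G ∣[k] γ) z ^ (m - s) * (e' s : ℍ → ℂ) z) := by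
      intro s hs
      have hsm : s ≤ m := Nat.lt_succ_iff.mp (Finset.mem_range.mp hs)
      rw [show k * (m : ℤ) = k * ((m - s : ℕ) : ℤ) + k * (s : ℤ) by
          push_cast [Nat.cast_sub hsm]; ring,
        ModularForm.mul_slash_SL2, pow_slash_SL,
        show (e' s : ℍ → ℂ) ∣[k * (s : ℤ)] γ = (e' s : ℍ → ℂ) from
          SlashInvariantFormClass.slash_action_eq (levelOneConj σ (esymmForm u s)) _ ⟨γ, rfl⟩]
      simp
    rw [Finset.sum_congr rfl hterm, Finset.sum_range_succ', he'0] at h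
    simp only [Subring.coe_one, Pi.one_apply, pow_zero, Nat.sub_zero, one_mul, mul_one] at h
    rw [← h, add_comm]
    congr 1
    refine Finset.sum_congr rfl fun s _ ↦ ?_
    simp [a]
    ring
  have hcusp : ∀ {c : OnePoint ℝ}, IsCusp c 𝒢 → IsCusp c 𝒮ℒ := fun hc ↦
    (Subgroup.IsArithmetic.isCusp_iff_isCusp_SL2Z 𝒢).mp hc
  let g : ModularForm 𝒢 k :=
    { toFun := G
      slash_action_eq' := fun x hx ↦ by
        obtain ⟨γ, rfl⟩ := hle hx
        exact hGinv γ hx
      holo' := hGd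
      bdd_at_cusps' := fun hc ↦ by
        rw [OnePoint.isBoundedAt_iff_forall_SL2Z (hcusp hc)]
        intro γ _
        exact isBoundedAtImInfty_of_monic (hslashrel γ)
          fun s _ ↦ (smul_mem_goodSubring _ (e' (s + 1)).2).2.2 }
  refine ⟨g, ?_, fun hf γ ↦ ?_⟩
  · let gG : goodSubring := ⟨⇑g, modularForm_mem_goodSubring h1 g⟩
    have hmul : gG * D' = N' := Subtype.ext (funext hGeq)
    have h := congrArg qE hmul
    rw [map_mul, hqN] at h
    exact mul_right_cancel₀ (fun h0 ↦ hD'0 (qE_injective (h0.trans (map_zero _).symm))) h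
  · refine isZeroAtImInfty_of_monic (hslashrel γ) fun s _ ↦ ?_
    have hzero : IsZeroAtImInfty (e (s + 1) : ℍ → ℂ) := by
      simp only [e, goodOf, coe_esymmForm]
      refine (Filter.zeroAtFilterSubmodule ℂ atImInfty).sum_mem fun T hT ↦ ?_
      obtain ⟨-, hT⟩ := Finset.mem_powersetCard.mp hT
      obtain ⟨j, hj⟩ := Finset.card_pos.mp (by omega : 0 < T.card)
      have hz : ∀ q, IsZeroAtImInfty (u.fn q) := fun q ↦ by
        obtain ⟨r, rfl⟩ := QuotientGroup.mk_surjective q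
        obtain ⟨_, δ, rfl⟩ := r
        show IsZeroAtImInfty
          (SlashInvariantForm.quotientFunc f (Quotient.mk _ (⟨mapGL ℝ δ, ⟨δ, rfl⟩⟩ : 𝒮ℒ)))
        rw [SlashInvariantForm.quotientFunc_mk]
        rw [← map_inv]
        exact hf δ⁻¹
      have := tendsto_finsetProd T (fun q (_ : q ∈ T) ↦ hz q)
      rw [Finset.prod_eq_zero hj rfl] at this
      simpa [Filter.ZeroAtFilter, Finset.prod_fn] using! this
    have hz' : IsZeroAtImInfty (e' (s + 1) : ℍ → ℂ) :=
      isZeroAtImInfty_of_coeff_zero _ (by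
        rw [qE_levelOneConj, PowerSeries.coeff_map, coeff_zero_of_isZeroAtImInfty _ hzero,
          map_zero])
    exact (Filter.zeroAtFilterSubmodule ℂ atImInfty).smul_mem _ hz'

end FLTAgent.IntStr
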