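import Fermat.Agent.IntStr.LevelOne
import Fermat.Prelude.Def_ModularForm_HeckeOperator
import Fermat.Prelude.Thm_CongruenceSubgroup_one_mem_strictPeriods_Gamma0

/-!
`Δ(N z)` as a rational form on `Γ₀(N)` with stabiliser exactly `Γ₀(N)`.
-/

set_option autoImplicit false

noncomputable section

open UpperHalfPlane Filter Topology Matrix.SpecialLinearGroup ModularForm CongruenceSubgroup
open scoped Manifold ModularForm MatrixGroups Real

namespace FLTAgent.IntStr

variable (N : ℕ) [NeZero N]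

/-- The function `N¹¹ Δ(N z)`. -/
def deltaScaled : ℍ → ℂ := (CuspForm.discriminant : ℍ → ℂ) ∣[(12 : ℤ)] heckeDiagMatrix N

theorem mapGL_val_int (δ : SL(2, ℤ)) :
    ((mapGL ℝ δ : GL (Fin 2) ℝ) : Matrix (Fin 2) (Fin 2) ℝ) =
      (δ : Matrix (Fin 2) (Fin 2) ℤ).map (fun x : ℤ ↦ (x : ℝ)) := rfl

theorem disc_slash (δ : SL(2, ℤ)) :
    (CuspForm.discriminant : ℍ → ℂ) ∣[(12 : ℤ)] δ = (CuspForm.discriminant : ℍ → ℂ) :=
  SlashInvariantFormClass.slash_action_eq CuspForm.discriminant _ ⟨δ, rfl⟩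

/-- `diag(N,1) γ = δ (α β; 0 δ')`. -/
theorem diag_mul_eq (γ : SL(2, ℤ)) :
    ∃ (α β e : ℤ) (δ : SL(2, ℤ)) (h : (α : ℝ) * (e : ℝ) ≠ 0), 0 < α ∧ α * e = N ∧ α ∣ γ 1 0 ∧
      heckeDiagMatrix N * mapGL ℝ γ = mapGL ℝ δ * upperTriangularGL α β e h := by
  have hN : (N : ℤ) ≠ 0 := by exact_mod_cast NeZero.ne N
  have hdet : γ 0 0 * γ 1 1 - γ 0 1 * γ 1 0 = 1 := by
    rw [← Matrix.det_fin_two (γ : Matrix (Fin 2) (Fin 2) ℤ)]; exact γ.2
  set g : ℕ := Int.gcd (γ 0 0 * N) (γ 1 0) with hg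
  have hgpos : 0 < g := by
    refine Int.gcd_pos_iff.mpr ?_
    by_contra! h
    rw [h.2] at hdet
    rcases mul_eq_zero.mp h.1 with h1 | h1
    · rw [h1] at hdet; simp at hdet
    · exact hN h1
  obtain ⟨p, r, hcop, hp, hr⟩ : ∃ p r : ℤ, Int.gcd p r = 1 ∧ γ 0 0 * N = p * g ∧ γ 1 0 = r * g := by
    obtain ⟨p, r, hcop, hp, hr⟩ := Int.exists_gcd_one hgpos
    exact ⟨p, r, hcop, hp, hr⟩
  obtain ⟨u, v, huv⟩ := Int.isCoprime_iff_gcd_eq_one.mpr hcop
  set e : ℤ := -r * (γ 0 1 * N) + p * γ 1 1 with he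
  have hge : (g : ℤ) * e = N := by
    rw [he]
    linear_combination (γ 0 1 * N) * hr - γ 1 1 * hp + (N : ℤ) * hdet
  have he0 : e ≠ 0 := fun h ↦ hN (by rw [← hge, h, mul_zero])
  obtain ⟨δ, hδ⟩ : ∃ δ : SL(2, ℤ), (δ : Matrix (Fin 2) (Fin 2) ℤ) = !![p, -v; r, u] :=
    ⟨⟨!![p, -v; r, u], by rw [Matrix.det_fin_two_of]; linear_combination huv⟩, rfl⟩
  refine ⟨g, u * (γ 0 1 * N) + v * γ 1 1, e, δ, ?_, by exact_mod_cast hgpos, hge,
    ⟨r, by rw [hr, mul_comm]⟩, ?_⟩
  · exact mul_ne_zero (by exact_mod_cast hgpos.ne') (by exact_mod_cast he0)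
  · have hpR : (γ 0 0 : ℝ) * N = p * g := by exact_mod_cast hp
    have hrR : (γ 1 0 : ℝ) = r * g := by exact_mod_cast hr
    have huvR : (u : ℝ) * p + v * r = 1 := by exact_mod_cast huv
    refine Units.ext ?_
    rw [Units.val_mul, Units.val_mul, val_heckeDiagMatrix (NeZero.ne N), val_upperTriangularGL,
      mapGL_val_int, mapGL_val_int]
    ext i j
    fin_cases i <;> fin_cases j <;>
      simp [Matrix.mul_apply, Fin.sum_univ_two, he, hδ]
    · linear_combination hpR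
    · linear_combination (-(γ 0 1 : ℝ) * N) * huvR
    · linear_combination hrR
    · linear_combination (-(γ 1 1 : ℝ)) * huvR

theorem deltaScaled_slash (γ : SL(2, ℤ)) :
    ∃ (α β e : ℤ) (h : (α : ℝ) * (e : ℝ) ≠ 0), 0 < α ∧ α * e = N ∧ α ∣ γ 1 0 ∧
      deltaScaled N ∣[(12 : ℤ)] γ =
        (CuspForm.discriminant : ℍ → ℂ) ∣[(12 : ℤ)] upperTriangularGL α β e h := by
  obtain ⟨α, β, e, δ, h, hα, hαe, hdvd, heq⟩ := diag_mul_eq N γ
  refine ⟨α, β, e, h, hα, hαe, hdvd, ?_⟩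
  rw [deltaScaled, ModularForm.SL_slash, ← SlashAction.slash_mul]
  rw [show heckeDiagMatrix N * (γ : GL (Fin 2) ℝ) = heckeDiagMatrix N * mapGL ℝ γ from rfl,
    heq, SlashAction.slash_mul,
    show (CuspForm.discriminant : ℍ → ℂ) ∣[(12 : ℤ)] mapGL ℝ δ = _ from disc_slash δ]

theorem deltaScaled_invariant (γ : SL(2, ℤ)) (hγ : γ ∈ Gamma0 N) :
    deltaScaled N ∣[(12 : ℤ)] γ = deltaScaled N := by
  obtain ⟨c', hc'⟩ : (N : ℤ) ∣ γ 1 0 := by
    rw [← ZMod.intCast_zmod_eq_zero_iff_dvd]; exact hγ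
  have hdet : γ 0 0 * γ 1 1 - γ 0 1 * γ 1 0 = 1 := by
    rw [← Matrix.det_fin_two (γ : Matrix (Fin 2) (Fin 2) ℤ)]; exact γ.2
  obtain ⟨δ, hδ⟩ : ∃ δ : SL(2, ℤ),
      (δ : Matrix (Fin 2) (Fin 2) ℤ) = !![γ 0 0, γ 0 1 * N; c', γ 1 1] :=
    ⟨⟨!![γ 0 0, γ 0 1 * N; c', γ 1 1], by
      rw [Matrix.det_fin_two_of]; linear_combination hdet + γ 0 1 * hc'⟩, rfl⟩
  have heq : heckeDiagMatrix N * mapGL ℝ γ = mapGL ℝ δ * heckeDiagMatrix N := by
    have hcR : (γ 1 0 : ℝ) = N * c' := by exact_mod_cast hc'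
    refine Units.ext ?_
    rw [Units.val_mul, Units.val_mul, val_heckeDiagMatrix (NeZero.ne N),
      mapGL_val_int, mapGL_val_int]
    ext i j
    fin_cases i <;> fin_cases j <;>
      simp [Matrix.mul_apply, Fin.sum_univ_two, hδ]
    · ring
    · ring
    · linear_combination hcR
  rw [deltaScaled, ModularForm.SL_slash, ← SlashAction.slash_mul]
  rw [show heckeDiagMatrix N * (γ : GL (Fin 2) ℝ) = heckeDiagMatrix N * mapGL ℝ γ from rfl,
    heq, SlashAction.slash_mul,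
    show (CuspForm.discriminant : ℍ → ℂ) ∣[(12 : ℤ)] mapGL ℝ δ = _ from disc_slash δ]

theorem deltaScaled_bdd (γ : SL(2, ℤ)) :
    IsBoundedAtImInfty (deltaScaled N ∣[(12 : ℤ)] γ) := by
  obtain ⟨α, β, e, h, -, -, -, heq⟩ := deltaScaled_slash N γ
  rw [heq]
  exact IsBoundedAtImInfty.slash 12 (by simp)
    (ModularFormClass.bdd_at_infty CuspForm.discriminant)

/-- `N¹¹ Δ(N z)` as a modular form on `Γ₀(N)`. -/
def deltaLevel : ModularForm (Gamma0 N) 12 where
  toFun := deltaScaled N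
  slash_action_eq' := fun x hx ↦ by
    obtain ⟨γ, hγ, rfl⟩ := hx
    exact deltaScaled_invariant N γ hγ
  holo' := (ModularFormClass.holo CuspForm.discriminant).slash 12 _
  bdd_at_cusps' := fun hc ↦ by
    rw [OnePoint.isBoundedAt_iff_forall_SL2Z
      ((Subgroup.IsArithmetic.isCusp_iff_isCusp_SL2Z _).mp hc)]
    exact fun γ _ ↦ deltaScaled_bdd N γ

theorem coe_deltaLevel : ⇑(deltaLevel N) = deltaScaled N := rfl

theorem deltaLevel_apply (z : ℍ) :
    deltaLevel N z = (N : ℂ) ^ 11 * CuspForm.discriminant (heckeDiagMatrix N • z) := by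
  rw [coe_deltaLevel, deltaScaled, slash_heckeDiagMatrix_apply _ (NeZero.ne N)]
  norm_num [zpow_natCast]

theorem deltaLevel_qExpansion_map (σ : ℂ →+* ℂ) :
    PowerSeries.map σ (qExpansion 1 (deltaLevel N)) = qExpansion 1 (deltaLevel N) := by
  set a : ℕ → ℂ := fun n ↦ (qExpansion 1 (CuspForm.discriminant : ℍ → ℂ)).coeff n
  have ha : ∀ n, σ (a n) = a n := fun n ↦ by
    have h := congrArg (PowerSeries.coeff n) (discriminant_qExpansion_map σ)
    rwa [PowerSeries.coeff_map] at h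
  let c : ℕ → ℂ := fun n ↦ if N ∣ n then (N : ℂ) ^ 11 * a (n / N) else 0
  have hsum : ∀ τ : ℍ, HasSum (fun n ↦ c n • Function.Periodic.qParam (1 : ℝ) τ ^ n)
      (deltaLevel N τ) := by
    intro τ
    have h := (ModularForm.hasSum_qExpansion CuspForm.discriminant one_pos
      one_mem_strictPeriods_SL (heckeDiagMatrix N • τ)).mul_left ((N : ℂ) ^ 11)
    rw [← deltaLevel_apply] at h
    have hinj : Function.Injective (fun n : ℕ ↦ N * n) := fun x y hxy ↦
      Nat.eq_of_mul_eq_mul_left (Nat.pos_of_neZero N) hxy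
    refine (hinj.hasSum_iff ?_).mp ?_
    · intro n hn
      have : ¬ N ∣ n := fun ⟨x, hx⟩ ↦ hn ⟨x, hx.symm⟩
      simp [c, this]
    · refine h.congr_fun fun n ↦ ?_
      simp only [Function.comp_apply, c, dvd_mul_right, if_true, smul_eq_mul,
        Nat.mul_div_cancel_left _ (Nat.pos_of_neZero N), a, mul_assoc]
      congr 2
      rw [pow_mul]
      congr 1
      simp only [Function.Periodic.qParam, coe_heckeDiagMatrix_smul (NeZero.ne N),
        ← Complex.exp_nat_mul]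
      congr 1
      ring
  have h1 := CongruenceSubgroup.one_mem_strictPeriods_Gamma0 N
  ext n
  rw [PowerSeries.coeff_map, ← ModularFormClass.qExpansion_coeff_unique one_pos h1 hsum n]
  simp only [c]
  split_ifs <;> simp [map_mul, ha]

theorem norm_discriminant (τ : ℍ) : ‖(CuspForm.discriminant : ℍ → ℂ) τ‖ =
    Real.exp (-2 * π * τ.im) * ‖∏' n, (1 - eta_q n τ) ^ 24‖ := by
  rw [CuspForm.coe_discriminant, discriminant_eq_q_prod, norm_mul]
  congr 1
  simp [Function.Periodic.qParam, Complex.norm_exp]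

theorem deltaLevel_separating (γ : SL(2, ℤ)) (hγ : γ ∉ Gamma0 N) :
    (⇑(deltaLevel N) : ℍ → ℂ) ∣[(12 : ℤ)] γ ≠ ⇑(deltaLevel N) := by
  intro heq0
  rw [coe_deltaLevel] at heq0
  obtain ⟨α, β, e, h, hα, hαe, hdvd, heq⟩ := deltaScaled_slash N γ
  rw [heq0] at heq
  have hN : (0 : ℤ) < N := by exact_mod_cast Nat.pos_of_neZero N
  have he : 0 < e := by nlinarith
  have hαR : (0 : ℝ) < α := by exact_mod_cast hα
  have heR : (0 : ℝ) < e := by exact_mod_cast he
  set P : ℍ → ℝ := fun τ ↦ ‖∏' n, (1 - eta_q n τ) ^ 24‖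
  have hP : Tendsto P atImInfty (𝓝 1) := by
    simpa using tendsto_atImInfty_tprod_one_sub_eta_q_pow.norm
  set U := upperTriangularGL (α : ℝ) β e h
  have hdetU : (0 : ℝ) < U.det.val := by
    simp [U, upperTriangularGL, mul_pos hαR heR]
  -- the point `i y`
  let pt : ℝ → ℍ := fun y ↦ if hy : 0 < y then ⟨y * Complex.I, by simpa using hy⟩ else UpperHalfPlane.I
  have hpt : ∀ y, 0 < y → (pt y).im = y := fun y hy ↦ by simp [pt, hy, ← UpperHalfPlane.coe_im]
  have himD : ∀ z : ℍ, (heckeDiagMatrix N • z).im = N * z.im := fun z ↦ by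
    simp [← UpperHalfPlane.coe_im, coe_heckeDiagMatrix_smul (NeZero.ne N)]
  have himU : ∀ z : ℍ, (U • z).im = α / e * z.im := fun z ↦ by
    simp [← UpperHalfPlane.coe_im, UpperHalfPlane.coe_smul_of_det_pos hdetU, UpperHalfPlane.num,
      UpperHalfPlane.denom, U, Complex.div_im, Complex.normSq]
    field_simp
  -- the norm identity
  set C : ℝ := |U.det.val| ^ (11 : ℕ) / |(e : ℝ)| ^ (12 : ℕ)
  have hC : 0 < C := by positivity
  have hid : ∀ z : ℍ, (N : ℝ) ^ 11 * (Real.exp (-2 * π * (N * z.im)) * P (heckeDiagMatrix N • z)) =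
      C * (Real.exp (-2 * π * (α / e * z.im)) * P (U • z)) := by
    intro z
    have h1 := congrArg (fun f : ℍ → ℂ ↦ ‖f z‖) heq
    simp only [deltaScaled] at h1
    rw [slash_heckeDiagMatrix_apply _ (NeZero.ne N), ModularForm.slash_apply,
      UpperHalfPlane.σ, if_pos hdetU] at h1
    simp only [norm_mul, norm_zpow, Complex.norm_natCast, ContinuousAlgEquiv.refl_apply,
      norm_discriminant, himD, himU, Complex.norm_real, Real.norm_eq_abs, abs_abs] at h1
    have hden : ‖UpperHalfPlane.denom U z‖ = |(e : ℝ)| := by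
      simp [UpperHalfPlane.denom, U]
    rw [hden] at h1
    simp only [Int.reduceSub, zpow_neg, zpow_ofNat] at h1
    rw [h1]
    simp only [C, P, div_eq_mul_inv]
    ring
  have hlimD : Tendsto (fun y ↦ P (heckeDiagMatrix N • pt y)) atTop (𝓝 1) := by
    refine hP.comp ?_
    simp only [atImInfty, tendsto_comap_iff]
    refine Tendsto.congr' ?_ (tendsto_id.const_mul_atTop (show (0 : ℝ) < N by exact_mod_cast hN))
    filter_upwards [eventually_gt_atTop 0] with y hy
    simp [himD, hpt y hy]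
  have hlimU : Tendsto (fun y ↦ P (U • pt y)) atTop (𝓝 1) := by
    refine hP.comp ?_
    simp only [atImInfty, tendsto_comap_iff]
    refine Tendsto.congr' ?_ (tendsto_id.const_mul_atTop (div_pos hαR heR))
    filter_upwards [eventually_gt_atTop 0] with y hy
    simp [himU, hpt y hy]
  -- exponential rate must vanish
  set t : ℝ := -2 * π * (N - α / e)
  have hlim : Tendsto (fun y ↦ Real.exp (t * y)) atTop (𝓝 (C / (N : ℝ) ^ 11)) := by
    have hlim' := (hlimU.div hlimD one_ne_zero).const_mul (C / (N : ℝ) ^ 11)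
    rw [div_one, mul_one] at hlim'
    refine hlim'.congr' ?_
    filter_upwards [eventually_gt_atTop 0, hlimD.eventually_ne one_ne_zero] with y hy hy0
    have := hid (pt y)
    rw [hpt y hy] at this
    rw [show t * y = -2 * π * (N * y) - -2 * π * (α / e * y) by simp only [t]; ring, Real.exp_sub]
    have eN : (N : ℝ) ^ 11 ≠ 0 := pow_ne_zero _ (by exact_mod_cast hN.ne')
    rw [Pi.div_apply, div_mul_div_comm,
      div_eq_div_iff (mul_ne_zero eN hy0) (Real.exp_pos _).ne']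
    linear_combination -this
  have hpos : 0 < C / (N : ℝ) ^ 11 := div_pos hC (pow_pos (by exact_mod_cast hN) _)
  have ht : t = 0 := by
    rcases lt_trichotomy t 0 with h0 | h0 | h0
    · have := tendsto_nhds_unique hlim
        (Real.tendsto_exp_atBot.comp (tendsto_id.const_mul_atTop_of_neg h0))
      linarith
    · exact h0
    · exact absurd hlim (not_tendsto_nhds_of_tendsto_atTop
        (Real.tendsto_exp_atTop.comp (tendsto_id.const_mul_atTop h0)) _)
  have hα_eq : (α : ℝ) = N * e := by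
    have h2 : (N : ℝ) - α / e = 0 := by
      simpa [t, Real.pi_ne_zero] using ht
    field_simp at h2
    linarith
  have hα_eq' : α = N * e := by exact_mod_cast hα_eq
  have he1 : e = 1 := by
    have h2 : (N : ℤ) * (e * e - 1) = 0 := by rw [hα_eq'] at hαe; linear_combination hαe
    rcases mul_eq_zero.mp h2 with h3 | h3
    · omega
    · nlinarith
  refine hγ ?_
  rw [Gamma0_mem, ZMod.intCast_zmod_eq_zero_iff_dvd]
  rw [hα_eq', he1, mul_one] at hdvd
  exact hdvd

end FLTAgent.IntStr
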