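import Mathlib

/-!
Endomorphisms of `ℂ` moving a given irrational number.
-/

set_option autoImplicit false

noncomputable section

open Polynomial Cardinal

namespace FLTAgent.IntStr

theorem countable_ratPolynomial : Countable ℚ[X] :=
  Function.Injective.countable (f := fun p : ℚ[X] ↦ (⟨p.support, p.toFinsupp.coeff⟩ : _ × (ℕ →₀ ℚ)))
    fun _ _ h ↦ Polynomial.toFinsupp_injective (AddMonoidAlgebra.coeff_injective (congrArg Prod.snd h))

theorem exists_ringEquiv_extending {R L M : Type} [CommRing R] [IsDomain R] [Countable R]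
    [Field L] [Field M] [Algebra R L] [Algebra R M] [IsAlgClosed L] [IsAlgClosed M]
    (hiL : Function.Injective (algebraMap R L)) (hiM : Function.Injective (algebraMap R M))
    (hL : ℵ₀ < #L) (hLM : #L = #M) :
    ∃ σ : L ≃+* M, ∀ x, σ (algebraMap R L x) = algebraMap R M x := by
  have : FaithfulSMul R L := (faithfulSMul_iff_algebraMap_injective R L).mpr hiL
  have : FaithfulSMul R M := (faithfulSMul_iff_algebraMap_injective R M).mpr hiM
  obtain ⟨s, hs⟩ := exists_isTranscendenceBasis R L
  obtain ⟨t, ht⟩ := exists_isTranscendenceBasis R M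
  have hR : #R ≤ ℵ₀ := Cardinal.mk_le_aleph0
  have h1 := IsAlgClosed.cardinal_eq_cardinal_transcendence_basis_of_aleph0_lt' _ hs hR hL
  have h2 := IsAlgClosed.cardinal_eq_cardinal_transcendence_basis_of_aleph0_lt' _ ht hR
    (hLM ▸ hL)
  obtain ⟨e⟩ := Cardinal.eq.mp (h1.symm.trans (hLM.trans h2))
  let := IsAlgClosed.isAlgClosure_of_transcendence_basis _ hs
  let := IsAlgClosed.isAlgClosure_of_transcendence_basis _ ht
  let eA : Algebra.adjoin R (Set.range ((↑) : s → L)) ≃ₐ[R]
      Algebra.adjoin R (Set.range ((↑) : t → M)) :=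
    (hs.1.aevalEquiv.symm.trans (MvPolynomial.renameEquiv R e)).trans ht.1.aevalEquiv
  refine ⟨IsAlgClosure.equivOfEquiv L M eA.toRingEquiv, fun x ↦ ?_⟩
  have hx : algebraMap R L x = algebraMap (Algebra.adjoin R (Set.range ((↑) : s → L))) L
      (algebraMap R _ x) := rfl
  rw [hx, IsAlgClosure.equivOfEquiv_algebraMap]
  exact congrArg (fun y : Algebra.adjoin R (Set.range ((↑) : t → M)) ↦ (y : M)) (eA.commutes x)

theorem exists_ringEquiv_complex_of_two_homs {R : Type} [CommRing R] [IsDomain R] [Countable R]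
    (φ ψ : R →+* ℂ) (hφ : Function.Injective φ) (hψ : Function.Injective ψ) :
    ∃ σ : ℂ ≃+* ℂ, ∀ x, σ (φ x) = ψ x :=
  @exists_ringEquiv_extending R ℂ ℂ _ _ _ _ _ φ.toAlgebra ψ.toAlgebra _ _ hφ hψ
    (by rw [Cardinal.mk_complex]; exact Cardinal.aleph0_lt_continuum) rfl

/-- Every non-rational complex number is moved by some ring endomorphism of `ℂ`. -/
theorem exists_ringHom_apply_ne' (z : ℂ) (hz : ∀ r : ℚ, (r : ℂ) ≠ z) :
    ∃ σ : ℂ →+* ℂ, σ z ≠ z := by
  by_cases halg : IsIntegral ℚ z
  · have hdeg : 2 ≤ (minpoly ℚ z).natDegree := by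
      refine (minpoly.two_le_natDegree_iff halg).mpr ?_
      rintro ⟨r, hr⟩
      exact hz r (by simpa using hr)
    obtain ⟨w, hw, hwz⟩ : ∃ w, aeval w (minpoly ℚ z) = 0 ∧ w ≠ z := by
      by_contra! h
      have hnd : ((minpoly ℚ z).aroots ℂ).Nodup :=
        Polynomial.nodup_roots (minpoly.irreducible halg).separable.map
      have hcard : ((minpoly ℚ z).aroots ℂ).card = (minpoly ℚ z).natDegree :=
        IsAlgClosed.card_aroots_eq_natDegree
      have hsub : ((minpoly ℚ z).aroots ℂ).toFinset ⊆ {z} := fun w hw ↦ by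
        rw [Multiset.mem_toFinset, mem_aroots] at hw
        simpa using h w hw.2
      have := Finset.card_le_card hsub
      rw [Multiset.toFinset_card_of_nodup hnd, hcard] at this
      simp at this
      omega
    have : Fact (Irreducible (minpoly ℚ z)) := ⟨minpoly.irreducible halg⟩
    have := countable_ratPolynomial
    have : Countable (AdjoinRoot (minpoly ℚ z)) :=
      AdjoinRoot.mk_surjective.countable
    let φ : AdjoinRoot (minpoly ℚ z) →+* ℂ :=
      AdjoinRoot.lift (algebraMap ℚ ℂ) z (minpoly.aeval ℚ z)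
    let ψ : AdjoinRoot (minpoly ℚ z) →+* ℂ :=
      AdjoinRoot.lift (algebraMap ℚ ℂ) w hw
    obtain ⟨σ, hσ⟩ := exists_ringEquiv_complex_of_two_homs φ ψ φ.injective ψ.injective
    refine ⟨σ.toRingHom, ?_⟩
    have h := hσ (AdjoinRoot.root _)
    have hφr : φ (AdjoinRoot.root (minpoly ℚ z)) = z := AdjoinRoot.lift_root _
    have hψr : ψ (AdjoinRoot.root (minpoly ℚ z)) = w := AdjoinRoot.lift_root _
    rw [hφr, hψr] at h
    simpa [h] using hwz
  · have := countable_ratPolynomial
    have htr : Transcendental ℚ z := fun h ↦ halg h.isIntegral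
    have htr' : Transcendental ℚ (z + 1) := fun h ↦ htr <| by
      simpa using h.sub (isAlgebraic_one)
    obtain ⟨σ, hσ⟩ := exists_ringEquiv_complex_of_two_homs
      (aeval z : ℚ[X] →ₐ[ℚ] ℂ).toRingHom (aeval (z + 1) : ℚ[X] →ₐ[ℚ] ℂ).toRingHom
      (transcendental_iff_injective.mp htr) (transcendental_iff_injective.mp htr')
    refine ⟨σ.toRingHom, ?_⟩
    have h := hσ X
    simp only [AlgHom.toRingHom_eq_coe, RingHom.coe_coe, aeval_X] at h
    simp [h]

end FLTAgent.IntStr
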