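import Fermat.Agent.IntStr.Basic
import Fermat.Agent.IntStr.FieldAut
import Fermat.Agent.IntStr.ConjCore
import Fermat.Agent.IntStr.DeltaN

/-!
Galois action on q-expansions of modular forms on `Γ₀(N)`.
-/

set_option autoImplicit false

noncomputable section

open CongruenceSubgroup ModularFormClass UpperHalfPlane Matrix.SpecialLinearGroup
open scoped ModularForm MatrixGroups

namespace FLTAgent.IntStr

/-- Every non-rational complex number is moved by some ring endomorphism of `ℂ`. -/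
theorem exists_ringHom_apply_ne (z : ℂ) (hz : ∀ r : ℚ, (r : ℂ) ≠ z) :
    ∃ σ : ℂ →+* ℂ, σ z ≠ z :=
  exists_ringHom_apply_ne' z hz

/-- Conjugation on `Γ₀(N)`, with preservation of cuspidality. -/
theorem exists_galConj_Gamma0 (N : ℕ) [NeZero N] (k : ℤ) (σ : ℂ →+* ℂ)
    (f : ModularForm (Gamma0 N) k) :
    ∃ g : ModularForm (Gamma0 N) k, (∀ n, qCoeff g n = σ (qCoeff f n)) ∧
      ((∀ γ : SL(2, ℤ), IsZeroAtImInfty ((⇑f : ℍ → ℂ) ∣[k] γ)) →
        ∀ γ : SL(2, ℤ), IsZeroAtImInfty ((⇑g : ℍ → ℂ) ∣[k] γ)) := by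
  have hle : Subgroup.map (mapGL ℝ) (Gamma0 N) ≤ 𝒮ℒ := by
    rintro _ ⟨γ, -, rfl⟩
    exact ⟨γ, rfl⟩
  obtain ⟨g, hg, hg0⟩ := exists_galConj_core hle (one_mem_periods N) σ (deltaLevel N)
    (deltaLevel_qExpansion_map N σ)
    (fun γ hγ ↦ deltaLevel_separating N γ fun h ↦ hγ ⟨γ, h, rfl⟩) f
  refine ⟨g, fun n ↦ ?_, hg0⟩
  rw [qCoeff, qCoeff, hg, PowerSeries.coeff_map]

/-- Coefficientwise conjugates of cusp forms on `Γ₀(N)` are cusp forms on `Γ₀(N)`. -/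
theorem exists_galConj_cuspForm (N : ℕ) [NeZero N] (k : ℤ) (σ : ℂ →+* ℂ)
    (f : CuspForm (Gamma0 N) k) :
    ∃ g : CuspForm (Gamma0 N) k, ∀ n, qCoeff g n = σ (qCoeff f n) := by
  obtain ⟨g, hg, hg0⟩ := exists_galConj_Gamma0 N k σ (ModularFormClass.modularForm f)
  have h0 := hg0 fun γ ↦ CuspFormClass.zero_at_infty_slash f γ
  refine ⟨{ toSlashInvariantForm := g.toSlashInvariantForm
            holo' := g.holo'
            zero_at_cusps' := fun hc ↦ ?_ }, fun n ↦ ?_⟩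
  · rw [OnePoint.isZeroAt_iff_forall_SL2Z
      ((Subgroup.IsArithmetic.isCusp_iff_isCusp_SL2Z _).mp hc)]
    exact fun γ _ ↦ h0 γ
  · exact hg n

/-- Coefficientwise conjugates of modular forms on `Γ₀(N)` are modular forms on `Γ₀(N)`. -/
theorem exists_galConj_modularForm (N : ℕ) [NeZero N] (k : ℤ) (σ : ℂ →+* ℂ)
    (f : ModularForm (Gamma0 N) k) :
    ∃ g : ModularForm (Gamma0 N) k, ∀ n, qCoeff g n = σ (qCoeff f n) := by
  obtain ⟨g, hg, -⟩ := exists_galConj_Gamma0 N k σ f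
  exact ⟨g, hg⟩

end FLTAgent.IntStr
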