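import Fermat.Agent.IntStr.Duality
import Fermat.Agent.IntStr.Descent
import Fermat.Agent.IntStr.GalConj
import Fermat.Agent.IntStr.Finite
import Fermat.Prelude.Def_CuspForm_IntegralLattice

/-!
Integral structure of `S_k(Γ₀(N))` and Hecke duality in weight two: rational forms span
(`span_ratForms`, by Galois descent), an integral structure follows from finiteness of the Hecke
algebra (`hasIntegralStructure_weight_two`), and with it `rank T = dim S₂` and perfectness of the
pairing (`finrank_heckeAlgebra_two`, `heckePairing_two_bijective`).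
-/

set_option autoImplicit false

noncomputable section

open CongruenceSubgroup ModularFormClass UpperHalfPlane CuspForm

namespace FLTAgent.IntStr

/-- Rational forms span in every weight. -/
theorem span_ratForms (N : ℕ) [NeZero N] (k : ℤ) :
    Submodule.span ℂ (ratForms N k) = ⊤ :=
  span_ratForms_eq_top exists_ringHom_apply_ne (exists_galConj_cuspForm N k)

/-- An integral structure in every weight with a finite Hecke algebra. -/
theorem hasIntegralStructure_of_finite (N : ℕ) [NeZero N] {k : ℤ} (hk : 1 ≤ k)
    (hfin : Module.Finite ℤ (heckeAlgebra N k ∅)) : HasIntegralStructure N k :=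
  hasIntegralStructure_of_span_ratForms hk hfin (span_ratForms N k)

theorem hasIntegralStructure_weight_two (N : ℕ) [NeZero N] : HasIntegralStructure N 2 :=
  hasIntegralStructure_of_finite N (by norm_num) (moduleFinite_heckeAlgebra_two N)

theorem qIntegralSet_eq_intLattice (N : ℕ) :
    qIntegralSet N = (intLattice N 2 : Set (CuspForm (Gamma0 N) 2)) := by
  ext f
  simp only [qIntegralSet, Set.mem_ofPred_eq, SetLike.mem_coe, mem_intLattice_iff,
    Subring.mem_bot, eq_comm]

theorem hasIntegralBasis (N : ℕ) [NeZero N] : HasIntegralBasis N := by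
  rw [HasIntegralBasis, qIntegralSet_eq_intLattice]
  exact hasIntegralStructure_weight_two N

/-- `rank T = dim S₂`. -/
theorem finrank_heckeAlgebra_two (N : ℕ) [NeZero N] :
    Module.finrank ℤ (heckeAlgebra N 2 ∅) = Module.finrank ℂ (CuspForm (Gamma0 N) 2) :=
  finrank_heckeAlgebra (by norm_num) (hasIntegralStructure_weight_two N)

/-- `S₂ ≅ Hom(T, ℂ)` by `f ↦ (t ↦ a₁(t f))`. -/
theorem heckePairing_two_bijective (N : ℕ) [NeZero N] :
    Function.Bijective (heckePairing N 2) :=
  heckePairing_bijective (by norm_num) (hasIntegralStructure_weight_two N)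

theorem liftBaseChange_two_injective (N : ℕ) [NeZero N] :
    Function.Injective
      ((Subalgebra.val (heckeAlgebra N 2 ∅)).toLinearMap.liftBaseChange ℂ) :=
  liftBaseChange_injective (by norm_num) (hasIntegralStructure_weight_two N)

theorem exists_intLattice_two_of_hom (N : ℕ) [NeZero N]
    (φ : heckeAlgebra N 2 ∅ →ₗ[ℤ] ℤ) :
    ∃! f : CuspForm (Gamma0 N) 2, f ∈ intLattice N 2 ∧
      ∀ t : heckeAlgebra N 2 ∅,
        qCoeff ((t : Module.End ℂ (CuspForm (Gamma0 N) 2)) f) 1 = (φ t : ℂ) :=
  exists_intLattice_of_hom (by norm_num) (hasIntegralStructure_weight_two N) φ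

end FLTAgent.IntStr
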