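import Mathlib

/-!
The ring of periodic holomorphic functions on `ℍ` bounded at `i∞`, with its q-expansion.
-/

set_option autoImplicit false

noncomputable section

open UpperHalfPlane Filter Topology
open scoped Manifold ModularForm MatrixGroups

namespace FLTAgent.IntStr

/-- `1`-periodic, holomorphic, bounded at `i∞`. -/
def goodSubring : Subring (ℍ → ℂ) where
  carrier := {f | Function.Periodic (f ∘ ofComplex) 1 ∧ MDiff f ∧ IsBoundedAtImInfty f}
  mul_mem' hf hg := ⟨hf.1.mul hg.1, hf.2.1.mul hg.2.1, Filter.BoundedAtFilter.mul hf.2.2 hg.2.2⟩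
  one_mem' := ⟨fun _ ↦ rfl, mdifferentiable_const, Filter.const_boundedAtFilter _ 1⟩
  add_mem' hf hg := ⟨hf.1.add hg.1, hf.2.1.add hg.2.1, Filter.BoundedAtFilter.add hf.2.2 hg.2.2⟩
  zero_mem' := ⟨fun _ ↦ rfl, mdifferentiable_const, Filter.const_boundedAtFilter _ 0⟩
  neg_mem' hf := ⟨fun z ↦ congrArg Neg.neg (hf.1 z), hf.2.1.neg, Filter.BoundedAtFilter.neg hf.2.2⟩

theorem mem_goodSubring_iff {f : ℍ → ℂ} : f ∈ goodSubring ↔
    Function.Periodic (f ∘ ofComplex) 1 ∧ MDiff f ∧ IsBoundedAtImInfty f := Iff.rfl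

theorem analyticAt_of_good (f : goodSubring) : AnalyticAt ℂ (cuspFunction 1 (f : ℍ → ℂ)) 0 :=
  analyticAt_cuspFunction_zero one_pos (by simpa using f.2.1) f.2.2.1 f.2.2.2

/-- q-expansion as a ring homomorphism. -/
def qE : goodSubring →+* PowerSeries ℂ where
  toFun f := qExpansion 1 (f : ℍ → ℂ)
  map_one' := qExpansion_one 1
  map_mul' f g := qExpansion_mul (analyticAt_of_good f) (analyticAt_of_good g)
  map_zero' := qExpansion_zero 1
  map_add' f g := qExpansion_add (analyticAt_of_good f) (analyticAt_of_good g)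

theorem qE_apply (f : goodSubring) : qE f = qExpansion 1 (f : ℍ → ℂ) := rfl

theorem qE_injective : Function.Injective qE := by
  refine (injective_iff_map_eq_zero _).mpr fun f hf ↦ Subtype.ext ?_
  exact (qExpansion_eq_zero_iff one_pos (by simpa using f.2.1) f.2.2.1 f.2.2.2).mp hf

theorem modularForm_mem_goodSubring {F : Type*} [FunLike F ℍ ℂ] {Γ : Subgroup (GL (Fin 2) ℝ)}
    {k : ℤ} [ModularFormClass F Γ k] (hΓ : (1 : ℝ) ∈ Γ.strictPeriods) (f : F) :
    (⇑f : ℍ → ℂ) ∈ goodSubring := by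
  have : Fact (IsCusp OnePoint.infty Γ) := ⟨Γ.isCusp_of_mem_strictPeriods one_pos hΓ⟩
  exact ⟨by simpa using SlashInvariantFormClass.periodic_comp_ofComplex f hΓ,
    ModularFormClass.holo f, ModularFormClass.bdd_at_infty f⟩

theorem const_mem_goodSubring (c : ℂ) : Function.const ℍ c ∈ goodSubring :=
  ⟨fun _ ↦ rfl, mdifferentiable_const, Filter.const_boundedAtFilter _ c⟩

theorem smul_mem_goodSubring (c : ℂ) {f : ℍ → ℂ} (hf : f ∈ goodSubring) :
    c • f ∈ goodSubring := by
  convert! goodSubring.mul_mem (const_mem_goodSubring c) hf using 1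

theorem isZeroAtImInfty_of_coeff_zero (f : goodSubring) (h : (qE f).coeff 0 = 0) :
    IsZeroAtImInfty (f : ℍ → ℂ) := by
  have h0 : valueAtInfty (f : ℍ → ℂ) = 0 := by
    rw [← qExpansion_coeff_zero one_pos (analyticAt_of_good f) (by simpa using f.2.1)]
    exact h
  have hdecay := exp_decay_sub_atImInfty one_pos (by simpa using f.2.1) f.2.2.1 f.2.2.2
  simp only [h0, sub_zero] at hdecay
  refine hdecay.trans_tendsto ?_
  simp only [div_one]
  exact Real.tendsto_exp_atBot.comp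
    (tendsto_comap.const_mul_atTop_of_neg (by simpa using Real.pi_pos))

theorem coeff_zero_of_isZeroAtImInfty (f : goodSubring) (h : IsZeroAtImInfty (f : ℍ → ℂ)) :
    (qE f).coeff 0 = 0 := by
  rw [qE_apply, qExpansion_coeff_zero one_pos (analyticAt_of_good f) (by simpa using f.2.1)]
  exact h.valueAtInfty_eq_zero

/-- Root bound for a monic polynomial. -/
theorem norm_lt_of_monic_eq_zero {m : ℕ} {y : ℂ} {a : ℕ → ℂ} {ε : ℝ} (hε : 0 < ε)
    (hy : y ^ m + ∑ s ∈ Finset.range m, a s * y ^ (m - (s + 1)) = 0)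
    (ha : ∑ s ∈ Finset.range m, ‖a s‖ / ε ^ (s + 1) < 1) : ‖y‖ < ε := by
  by_contra! h
  have hy0 : 0 < ‖y‖ := hε.trans_le h
  have h1 : ‖y‖ ^ m ≤ ∑ s ∈ Finset.range m, ‖a s‖ * ‖y‖ ^ (m - (s + 1)) := by
    rw [← norm_pow, eq_neg_of_add_eq_zero_left hy, norm_neg]
    refine (norm_sum_le _ _).trans (le_of_eq ?_)
    simp
  have h2 : ∑ s ∈ Finset.range m, ‖a s‖ * ‖y‖ ^ (m - (s + 1)) ≤
      ‖y‖ ^ m * ∑ s ∈ Finset.range m, ‖a s‖ / ε ^ (s + 1) := by
    rw [Finset.mul_sum]
    refine Finset.sum_le_sum fun s hs ↦ ?_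
    have hsm : s + 1 ≤ m := Finset.mem_range.mp hs
    have hp : ‖y‖ ^ m = ‖y‖ ^ (m - (s + 1)) * ‖y‖ ^ (s + 1) := by
      rw [← pow_add]; congr 1; omega
    rw [hp, ← mul_div_assoc, le_div_iff₀ (pow_pos hε _)]
    have := pow_le_pow_left₀ hε.le h (s + 1)
    calc ‖a s‖ * ‖y‖ ^ (m - (s + 1)) * ε ^ (s + 1)
        ≤ ‖a s‖ * ‖y‖ ^ (m - (s + 1)) * ‖y‖ ^ (s + 1) := by gcongr
      _ = _ := by ring
  have hpos : 0 < ‖y‖ ^ m := pow_pos hy0 m
  nlinarith

theorem isBoundedAtImInfty_of_monic {m : ℕ} {G : ℍ → ℂ} {a : ℕ → ℍ → ℂ}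
    (hG : ∀ z, G z ^ m + ∑ s ∈ Finset.range m, a s z * G z ^ (m - (s + 1)) = 0)
    (ha : ∀ s ∈ Finset.range m, IsBoundedAtImInfty (a s)) : IsBoundedAtImInfty G := by
  have hC : ∀ s ∈ Finset.range m, ∃ C : ℝ, ∀ᶠ z in atImInfty, ‖a s z‖ ≤ C := fun s hs ↦ by
    obtain ⟨C, A, hCA⟩ := isBoundedAtImInfty_iff.mp (ha s hs)
    exact ⟨C, (atImInfty_mem _).mpr ⟨A, fun z hz ↦ hCA z hz⟩⟩
  choose! C hC using hC
  set B : ℝ := ∑ s ∈ Finset.range m, |C s| + 1 with hB
  have hB1 : 1 ≤ B := by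
    have : (0 : ℝ) ≤ ∑ s ∈ Finset.range m, |C s| := Finset.sum_nonneg fun s _ ↦ abs_nonneg _
    linarith
  have hev : ∀ᶠ z in atImInfty, ∀ s ∈ Finset.range m, ‖a s z‖ ≤ C s :=
    (eventually_all_finset _).mpr hC
  refine Asymptotics.IsBigO.of_bound B ?_
  filter_upwards [hev] with z hz
  simp only [Pi.one_apply, norm_one, mul_one]
  refine (norm_lt_of_monic_eq_zero (by linarith) (hG z) ?_).le
  calc ∑ s ∈ Finset.range m, ‖a s z‖ / B ^ (s + 1)
      ≤ ∑ s ∈ Finset.range m, |C s| / B := Finset.sum_le_sum fun s hs ↦ by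
        refine div_le_div₀ (abs_nonneg _) ((hz s hs).trans (le_abs_self _)) (by linarith) ?_
        exact le_self_pow₀ hB1 (Nat.succ_ne_zero s)
    _ < 1 := by
        rw [← Finset.sum_div, div_lt_one (by linarith)]
        linarith

theorem isZeroAtImInfty_of_monic {m : ℕ} {G : ℍ → ℂ} {a : ℕ → ℍ → ℂ}
    (hG : ∀ z, G z ^ m + ∑ s ∈ Finset.range m, a s z * G z ^ (m - (s + 1)) = 0)
    (ha : ∀ s ∈ Finset.range m, IsZeroAtImInfty (a s)) : IsZeroAtImInfty G := by
  refine Metric.tendsto_nhds.mpr fun ε hε ↦ ?_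
  have hlim : Tendsto (fun z ↦ ∑ s ∈ Finset.range m, ‖a s z‖ / ε ^ (s + 1)) atImInfty (𝓝 0) := by
    simpa using tendsto_finsetSum (Finset.range m) fun s hs ↦
      ((tendsto_zero_iff_norm_tendsto_zero.mp (ha s hs)).div_const (ε ^ (s + 1)))
  filter_upwards [hlim.eventually_lt_const one_pos] with z hz
  simpa using norm_lt_of_monic_eq_zero hε (hG z) hz

/-- If `N/D` is integral over holomorphic functions then it extends holomorphically. -/
theorem exists_mdifferentiable_mul_eq {m : ℕ} {N D : ℍ → ℂ} {a : ℕ → ℍ → ℂ}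
    (hN : MDiff N) (hD : MDiff D) (hD0 : D ≠ 0) (ha : ∀ s ∈ Finset.range m, MDiff (a s))
    (hrel : ∀ z, D z ≠ 0 →
      (N z / D z) ^ m + ∑ s ∈ Finset.range m, a s z * (N z / D z) ^ (m - (s + 1)) = 0) :
    ∃ G : ℍ → ℂ, MDiff G ∧ ∀ z, G z * D z = N z := by
  classical
  set n := N ∘ ofComplex with hn_def
  set d := D ∘ ofComplex with hd_def
  have hn : DifferentiableOn ℂ n upperHalfPlaneSet := mdifferentiable_iff.mp hN
  have hd : DifferentiableOn ℂ d upperHalfPlaneSet := mdifferentiable_iff.mp hD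
  let q : ℂ → ℂ := fun z ↦ n z / d z
  let G : ℍ → ℂ := fun z ↦ limUnder (𝓝[≠] (z : ℂ)) q
  have hG_eq : ∀ z : ℍ, D z ≠ 0 → G z = N z / D z := by
    intro z hz
    have hdz : d (z : ℂ) ≠ 0 := by simpa [hd_def] using hz
    have hc : ContinuousAt q (z : ℂ) :=
      ((hn.differentiableAt (isOpen_upperHalfPlaneSet.mem_nhds z.2)).continuousAt).div
        ((hd.differentiableAt (isOpen_upperHalfPlaneSet.mem_nhds z.2)).continuousAt) hdz
    rw [show G z = q (z : ℂ) from (hc.tendsto.mono_left nhdsWithin_le_nhds).limUnder_eq]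
    simp [q, hn_def, hd_def]
  have hGdiff : MDiff G := by
    rw [mdifferentiable_iff]
    intro z₀ hz₀
    apply DifferentiableAt.differentiableWithinAt
    -- a compact ball in the upper half plane on which `d` vanishes at most at the centre
    have hne : ∀ᶠ z in 𝓝[≠] z₀, d z ≠ 0 := by
      by_contra hfr
      simp only [not_eventually, ne_eq, not_not] at hfr
      apply hD0
      have han := hd.analyticOnNhd isOpen_upperHalfPlaneSet
      have heq := han.eqOn_zero_of_preconnected_of_frequently_eq_zero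
        (Convex.isPreconnected (convex_halfSpace_im_gt 0)) hz₀ hfr
      ext w
      simpa [hd_def] using heq w.2
    rw [eventually_nhdsWithin_iff] at hne
    obtain ⟨r, hr, hball⟩ := Metric.eventually_nhds_iff.mp
      (hne.and (isOpen_upperHalfPlaneSet.eventually_mem hz₀))
    set s := Metric.ball z₀ (r / 2) with hs
    have hs_mem : s ∈ 𝓝 z₀ := Metric.ball_mem_nhds _ (by linarith)
    have hsub : Metric.closedBall z₀ (r / 2) ⊆ upperHalfPlaneSet := fun z hz ↦
      (hball (y := z) ((Metric.mem_closedBall.mp hz).trans_lt (by linarith))).2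
    have hsd : ∀ z ∈ Metric.closedBall z₀ (r / 2), z ≠ z₀ → d z ≠ 0 := fun z hz hzne ↦
      (hball (y := z) ((Metric.mem_closedBall.mp hz).trans_lt (by linarith))).1 hzne
    have hqd : DifferentiableOn ℂ q (s \ {z₀}) :=
      (hn.mono fun z hz ↦ hsub (Metric.ball_subset_closedBall hz.1)).div
        (hd.mono fun z hz ↦ hsub (Metric.ball_subset_closedBall hz.1))
        fun z hz ↦ hsd z (Metric.ball_subset_closedBall hz.1) hz.2
    have hbdd : BddAbove (norm ∘ q '' (s \ {z₀})) := by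
      let A : ℂ → ℝ := fun z ↦ ∑ i ∈ Finset.range m, ‖a i (ofComplex z)‖
      have hA : ContinuousOn A (Metric.closedBall z₀ (r / 2)) :=
        continuousOn_finsetSum _ fun i hi ↦
          (((UpperHalfPlane.mdifferentiable_iff.mp (ha i hi)).continuousOn).mono hsub).norm
      obtain ⟨C, hC⟩ := (isCompact_closedBall z₀ (r / 2)).bddAbove_image hA
      refine ⟨max C 1 + 1, ?_⟩
      rintro _ ⟨z, ⟨hzs, hzne⟩, rfl⟩
      have hzc := Metric.ball_subset_closedBall hzs
      have hAC : A z ≤ C := hC ⟨z, hzc, rfl⟩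
      have hAnn : 0 ≤ A z := Finset.sum_nonneg fun i _ ↦ norm_nonneg _
      set B : ℝ := max C 1 + 1
      have hB1 : 1 ≤ B := by have := le_max_right C 1; linarith
      have hCB : C < B := by have := le_max_left C 1; linarith
      have hdz : D (ofComplex z) ≠ 0 := hsd z hzc hzne
      refine (norm_lt_of_monic_eq_zero (by linarith) (hrel _ hdz) ?_).le
      calc ∑ i ∈ Finset.range m, ‖a i (ofComplex z)‖ / B ^ (i + 1)
          ≤ ∑ i ∈ Finset.range m, ‖a i (ofComplex z)‖ / B := Finset.sum_le_sum fun i _ ↦ by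
            gcongr
            exact le_self_pow₀ hB1 (Nat.succ_ne_zero i)
        _ < 1 := by
            rw [← Finset.sum_div, div_lt_one (by linarith)]
            exact hAC.trans_lt hCB
    have hupd := Complex.differentiableOn_update_limUnder_of_bddAbove hs_mem hqd hbdd
    refine (hupd.differentiableAt hs_mem).congr_of_eventuallyEq ?_
    filter_upwards [hs_mem] with z hz
    have hzc := Metric.ball_subset_closedBall hz
    rcases eq_or_ne z z₀ with rfl | hzne
    · simp [G, Function.comp_apply, ofComplex_apply_of_im_pos hz₀]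
    · rw [Function.update_of_ne hzne, Function.comp_apply, hG_eq _ (hsd z hzc hzne)]
      rfl
  refine ⟨G, hGdiff, fun z ↦ ?_⟩
  have hprod : (G * D - N) * D = 0 := by
    ext w
    rcases eq_or_ne (D w) 0 with h | h
    · simp [h]
    · simp [hG_eq w h, h]
  rcases (UpperHalfPlane.mul_eq_zero_iff ((hGdiff.mul hD).sub hN) hD).mp hprod with h | h
  · simpa [sub_eq_zero] using congrFun h z
  · exact absurd h hD0

end FLTAgent.IntStr
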