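import Mathlib
import Fermat.Prelude.Def_CuspForm_HeckeAlgebra
import Fermat.Prelude.Def_CuspForm_IntegralStructure
import Fermat.Prelude.Thm_CongruenceSubgroup_one_mem_strictPeriods_Gamma0
import Fermat.Prelude.Thm_ModularForm_sturm_bound_Gamma0
import Fermat.Prelude.Thm_ModularFormClass_qCoeff_heckeT
import Fermat.Prelude.Thm_ModularFormClass_qCoeff_heckeU
import Fermat.Prelude.Thm_CuspForm_intLattice_fg
import Fermat.Prelude.Thm_CuspForm_mem_intLattice_of_mem_heckeAlgebra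

/-!
Basic facts on q-coefficients of cusp forms on `Γ₀(N)`.
-/

set_option autoImplicit false

noncomputable section

open CongruenceSubgroup ModularFormClass UpperHalfPlane

namespace FLTAgent.IntStr

variable {N : ℕ} {k : ℤ}

local notation "𝕊" => CuspForm (Gamma0 N) k

theorem one_mem_periods (N : ℕ) :
    (1 : ℝ) ∈ (Subgroup.map (Matrix.SpecialLinearGroup.mapGL ℝ) (Gamma0 N)).strictPeriods :=
  CongruenceSubgroup.one_mem_strictPeriods_Gamma0 N

/-- The `n`-th coefficient as a linear map. -/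
def coeffLin (N : ℕ) (k : ℤ) (n : ℕ) : CuspForm (Gamma0 N) k →ₗ[ℂ] ℂ where
  toFun f := qCoeff f n
  map_add' f g := by
    simp only [qCoeff, FunLike.coe_add]
    rw [ModularForm.qExpansion_add one_pos (one_mem_periods N) f g, map_add]
  map_smul' c f := by
    simp only [qCoeff, FunLike.coe_smul, RingHom.id_apply]
    rw [ModularForm.qExpansion_smul one_pos (one_mem_periods N) c f]
    simp

@[simp] theorem coeffLin_apply (n : ℕ) (f : 𝕊) : coeffLin N k n f = qCoeff f n := rfl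

theorem qCoeff_add' (f g : 𝕊) (n : ℕ) : qCoeff (f + g : 𝕊) n = qCoeff f n + qCoeff g n :=
  map_add (coeffLin N k n) f g

theorem qCoeff_sub' (f g : 𝕊) (n : ℕ) : qCoeff (f - g : 𝕊) n = qCoeff f n - qCoeff g n :=
  map_sub (coeffLin N k n) f g

theorem qCoeff_smul' (c : ℂ) (f : 𝕊) (n : ℕ) : qCoeff (c • f : 𝕊) n = c * qCoeff f n :=
  map_smul (coeffLin N k n) c f

theorem qCoeff_zsmul' (c : ℤ) (f : 𝕊) (n : ℕ) : qCoeff (c • f : 𝕊) n = c * qCoeff f n := by
  rw [← Int.cast_smul_eq_zsmul ℂ c f, qCoeff_smul']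

theorem qCoeff_zero' (n : ℕ) : qCoeff (0 : 𝕊) n = 0 := map_zero (coeffLin N k n)

theorem qCoeff_sum' {ι : Type*} (s : Finset ι) (f : ι → 𝕊) (n : ℕ) :
    qCoeff (∑ i ∈ s, f i : 𝕊) n = ∑ i ∈ s, qCoeff (f i) n :=
  map_sum (coeffLin N k n) f s

theorem qCoeff_index_zero (f : 𝕊) : qCoeff f 0 = 0 :=
  CuspFormClass.qExpansion_coeff_zero f one_pos (one_mem_periods N)

/-- The Sturm bound of level `N`, weight `k`. -/
def sturmIdx (N : ℕ) (k : ℤ) : ℕ := (k * (Gamma0 N).index).toNat / 12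

theorem eq_zero_of_qCoeff_le [NeZero N] (f : 𝕊) (h : ∀ n, n ≤ sturmIdx N k → qCoeff f n = 0) :
    f = 0 := by
  have hmf : (ModularFormClass.modularForm f : ModularForm (Gamma0 N) k) = 0 := by
    refine ModularForm.sturm_bound_Gamma0 N _ fun n hn ↦ ?_
    simpa [qCoeff] using h n hn
  have hcoe : (⇑f : ℍ → ℂ) = 0 := by
    have := congrArg (fun F : ModularForm (Gamma0 N) k ↦ (⇑F : ℍ → ℂ)) hmf
    simpa using this
  exact DFunLike.coe_injective (hcoe.trans FunLike.coe_zero.symm)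

theorem eq_zero_of_qCoeff [NeZero N] (f : 𝕊) (h : ∀ n, qCoeff f n = 0) : f = 0 :=
  eq_zero_of_qCoeff_le f fun n _ ↦ h n

theorem eq_of_qCoeff [NeZero N] {f g : 𝕊} (h : ∀ n, qCoeff f n = qCoeff g n) : f = g :=
  sub_eq_zero.mp <| eq_zero_of_qCoeff _ fun n ↦ by rw [qCoeff_sub', h, sub_self]

instance finiteDimensional_cuspForm_Gamma0 [NeZero N] : FiniteDimensional ℂ 𝕊 := by
  let L : 𝕊 →ₗ[ℂ] (Fin (sturmIdx N k + 1) → ℂ) := LinearMap.pi fun i ↦ coeffLin N k i
  refine FiniteDimensional.of_injective L ((injective_iff_map_eq_zero _).mpr fun f hf ↦ ?_)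
  refine eq_zero_of_qCoeff_le f fun n hn ↦ ?_
  simpa [L] using congrFun hf ⟨n, Nat.lt_succ_of_le hn⟩

theorem mem_intLattice_iff (f : 𝕊) :
    f ∈ CuspForm.intLattice N k ↔ ∀ n : ℕ, ∃ m : ℤ, qCoeff f n = (m : ℂ) := by
  refine ⟨fun hf ↦ ?_, fun h ↦ Submodule.subset_span h⟩
  induction hf using Submodule.span_induction with
  | mem x hx => exact hx
  | zero => exact fun n ↦ ⟨0, (qCoeff_zero' n).trans Int.cast_zero.symm⟩
  | add x y _ _ hx hy =>
    intro n
    obtain ⟨a, ha⟩ := hx n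
    obtain ⟨b, hb⟩ := hy n
    exact ⟨a + b, by rw [qCoeff_add', ha, hb]; push_cast; rfl⟩
  | smul c x _ hx =>
    intro n
    obtain ⟨a, ha⟩ := hx n
    exact ⟨c * a, by rw [qCoeff_zsmul', ha]; push_cast; rfl⟩

/-- The `n`-th coefficient of a form is the first coefficient of a suitable Hecke translate. -/
theorem exists_heckeAlgebra_qCoeff_one [NeZero N] (hk : 1 ≤ k) :
    ∀ n : ℕ, n ≠ 0 → ∃ t ∈ CuspForm.heckeAlgebra N k ∅, ∀ f : 𝕊,
      qCoeff (t f) 1 = qCoeff f n := by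
  intro n
  induction n using Nat.strong_induction_on with
  | h n ih =>
  intro hn
  rcases eq_or_ne n 1 with rfl | hn1
  · exact ⟨1, one_mem _, fun f ↦ rfl⟩
  obtain ⟨p, hp, hpn⟩ := Nat.exists_prime_and_dvd hn1
  obtain ⟨m, rfl⟩ := hpn
  have hm : m ≠ 0 := fun h ↦ hn (by simp [h])
  have hmlt : m < p * m := lt_mul_left (Nat.pos_of_ne_zero hm) hp.one_lt
  obtain ⟨t₁, ht₁, hspec₁⟩ := ih m hmlt hm
  by_cases hpN : p ∣ N
  · refine ⟨t₁ * CuspForm.heckeULin k hpN,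
      mul_mem ht₁ (CuspForm.heckeULin_mem_heckeAlgebra hp hpN (Set.notMem_empty p)), fun f ↦ ?_⟩
    rw [Module.End.mul_apply, hspec₁, CuspForm.coe_heckeULin_apply,
      ModularFormClass.qCoeff_heckeU f (one_mem_periods N) hp.ne_zero,
      ModularForm.coeffHeckeU_apply, mul_comm]
  · have hmem := CuspForm.heckeTLin_mem_heckeAlgebra (k := k) hp hpN (Set.notMem_empty p)
    have hcoef : ∀ f : 𝕊, qCoeff (CuspForm.heckeTLin k hp hpN f) m =
        qCoeff f (p * m) + if p ∣ m then (p : ℂ) ^ (k - 1) * qCoeff f (m / p) else 0 := fun f ↦ by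
      rw [CuspForm.coe_heckeTLin_apply,
        ModularFormClass.qCoeff_heckeT f (one_mem_periods N) hp.ne_zero,
        ModularForm.coeffHeckeT_apply, mul_comm m p]
    by_cases hpm : p ∣ m
    · have hdiv : m / p ≠ 0 :=
        (Nat.div_pos (Nat.le_of_dvd (Nat.pos_of_ne_zero hm) hpm) hp.pos).ne'
      obtain ⟨t₂, ht₂, hspec₂⟩ := ih (m / p) ((Nat.div_le_self m p).trans_lt hmlt) hdiv
      refine ⟨t₁ * CuspForm.heckeTLin k hp hpN - ((p : ℤ) ^ (k - 1).toNat) • t₂,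
        sub_mem (mul_mem ht₁ hmem) (zsmul_mem ht₂ _), fun f ↦ ?_⟩
      have hpow : (p : ℂ) ^ (k - 1) = (((p : ℤ) ^ (k - 1).toNat : ℤ) : ℂ) := by
        conv_lhs => rw [← Int.toNat_of_nonneg (show 0 ≤ k - 1 by omega)]
        rw [zpow_natCast]
        push_cast
        rfl
      rw [LinearMap.sub_apply, LinearMap.smul_apply, qCoeff_sub', qCoeff_zsmul',
        Module.End.mul_apply, hspec₁, hspec₂, hcoef, if_pos hpm, hpow]
      ring
    · refine ⟨t₁ * CuspForm.heckeTLin k hp hpN, mul_mem ht₁ hmem, fun f ↦ ?_⟩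
      rw [Module.End.mul_apply, hspec₁, hcoef, if_neg hpm, add_zero]

theorem eq_zero_of_qCoeff_one [NeZero N] (hk : 1 ≤ k) (f : 𝕊)
    (h : ∀ t ∈ CuspForm.heckeAlgebra N k ∅, qCoeff (t f) 1 = 0) : f = 0 := by
  refine eq_zero_of_qCoeff f fun n ↦ ?_
  rcases eq_or_ne n 0 with rfl | hn
  · exact qCoeff_index_zero f
  · obtain ⟨t, ht, hspec⟩ := exists_heckeAlgebra_qCoeff_one (N := N) hk n hn
    rw [← hspec f]
    exact h t ht

end FLTAgent.IntStr
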