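import Fermat.Agent.IntStr.Basic

/-!
Duality between the integral Hecke algebra and cusp forms, given an integral structure.
-/

set_option autoImplicit false

noncomputable section

open CongruenceSubgroup ModularFormClass UpperHalfPlane CuspForm

namespace FLTAgent.IntStr

variable {N : ℕ} [NeZero N] {k : ℤ}

local notation "𝕊" => CuspForm (Gamma0 N) k
local notation "𝕋" => CuspForm.heckeAlgebra N k ∅

/-- The pairing `(f, t) ↦ a₁(t f)` as a map `S_k → Hom_ℤ(T, ℂ)`. -/
def heckePairing (N : ℕ) [NeZero N] (k : ℤ) :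
    CuspForm (Gamma0 N) k →ₗ[ℂ] (CuspForm.heckeAlgebra N k ∅ →ₗ[ℤ] ℂ) where
  toFun f :=
    { toFun := fun t ↦ qCoeff ((t : Module.End ℂ (CuspForm (Gamma0 N) k)) f) 1
      map_add' := fun s t ↦ by
        rw [Subalgebra.coe_add, LinearMap.add_apply, qCoeff_add']
      map_smul' := fun c t ↦ by
        rw [Subalgebra.coe_smul, LinearMap.smul_apply, qCoeff_zsmul', RingHom.id_apply,
          zsmul_eq_mul] }
  map_add' f g := by
    ext t
    simp only [LinearMap.coe_mk, AddHom.coe_mk, LinearMap.add_apply, map_add]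
    rw [qCoeff_add']
  map_smul' c f := by
    ext t
    simp only [LinearMap.coe_mk, AddHom.coe_mk, LinearMap.smul_apply, map_smul, RingHom.id_apply,
      smul_eq_mul]
    rw [qCoeff_smul']

theorem heckePairing_apply (f : 𝕊) (t : 𝕋) :
    heckePairing N k f t = qCoeff ((t : Module.End ℂ 𝕊) f) 1 := rfl

theorem heckePairing_injective (hk : 1 ≤ k) : Function.Injective (heckePairing N k) := by
  refine (injective_iff_map_eq_zero _).mpr fun f hf ↦ eq_zero_of_qCoeff_one hk f fun t ht ↦ ?_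
  exact LinearMap.congr_fun hf ⟨t, ht⟩

theorem commute_coe (s t : 𝕋) :
    Commute (s : Module.End ℂ 𝕊) (t : Module.End ℂ 𝕊) :=
  congrArg Subtype.val (mul_comm s t)

/-- An element of the `ℂ`-span of the Hecke algebra killed by all `a₁`-pairings is zero. -/
theorem sum_smul_eq_zero_of_qCoeff_one {ι : Type*} [Fintype ι] (hk : 1 ≤ k) (c : ι → ℂ) (t : ι → 𝕋)
    (h : ∀ f : 𝕊, qCoeff ((∑ i, c i • (t i : Module.End ℂ 𝕊)) f) 1 = 0) :
    ∑ i, c i • (t i : Module.End ℂ 𝕊) = 0 := by
  refine LinearMap.ext fun f ↦ eq_zero_of_qCoeff_one hk _ fun s hs ↦ ?_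
  have hcomm : Commute s (∑ i, c i • (t i : Module.End ℂ 𝕊)) :=
    Commute.sum_right _ _ _ fun i _ ↦ (commute_coe ⟨s, hs⟩ (t i)).smul_right (c i)
  rw [← Module.End.mul_apply, hcomm.eq, Module.End.mul_apply]
  exact h (s f)

theorem exists_int_qCoeff_heckeAlgebra (hk : 1 ≤ k) (t : 𝕋) {f : 𝕊}
    (hf : f ∈ intLattice N k) (n : ℕ) :
    ∃ m : ℤ, qCoeff ((t : Module.End ℂ 𝕊) f) n = m :=
  (mem_intLattice_iff _).mp (CuspForm.mem_intLattice_of_mem_heckeAlgebra hk t.2 hf) n

/-- With an integral structure, `ℤ`-independent Hecke operators are `ℂ`-independent. -/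
theorem linearIndependent_coe_of_integral (hk : 1 ≤ k) (hI : HasIntegralStructure N k)
    {ι : Type*} (t : ι → 𝕋) (ht : LinearIndependent ℤ t) :
    LinearIndependent ℂ fun i ↦ (t i : Module.End ℂ 𝕊) := by
  classical
  rw [linearIndependent_iff'] at ht ⊢
  intro s c hsum i hi
  by_contra hne
  set B := Module.Free.chooseBasis ℚ ℂ
  obtain ⟨j, hj⟩ : ∃ j, B.repr (c i) j ≠ 0 := by
    by_contra! h
    exact hne (B.repr.injective (Finsupp.ext fun j ↦ by simpa using h j))
  set φ : ℂ →ₗ[ℚ] ℚ := B.coord j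
  have hφ : φ (c i) ≠ 0 := hj
  -- clear denominators of the rational relation
  obtain ⟨⟨D, hD⟩, hDint⟩ := IsLocalization.exist_integer_multiples (nonZeroDivisors ℤ) s
    fun i ↦ φ (c i)
  choose z hz using hDint
  let z' : ι → ℤ := fun i ↦ if h : i ∈ s then z i h else 0
  have hz' : ∀ i ∈ s, (z' i : ℚ) = D * φ (c i) := fun i h ↦ by
    simpa [z', h] using hz i h
  have hD0 : (D : ℚ) ≠ 0 := by exact_mod_cast nonZeroDivisors.ne_zero hD
  have key : ∑ i ∈ s, z' i • (t i : Module.End ℂ 𝕊) = 0 := by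
    refine LinearMap.ext_on hI fun f hf ↦ eq_of_qCoeff fun n ↦ ?_
    simp only [LinearMap.sum_apply, LinearMap.smul_apply, qCoeff_sum', qCoeff_zsmul',
      LinearMap.zero_apply]
    rw [show qCoeff ((0 : 𝕊) : ℍ → ℂ) n = 0 from qCoeff_zero' n]
    choose a ha using fun i ↦ exists_int_qCoeff_heckeAlgebra hk (t i) hf n
    simp only [ha]
    have h0 : ∑ i ∈ s, c i * (a i : ℂ) = 0 := by
      have := congrArg (fun T : Module.End ℂ 𝕊 ↦ qCoeff (T f) n) hsum
      simp only [LinearMap.sum_apply, LinearMap.smul_apply, qCoeff_sum', qCoeff_smul', ha,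
        LinearMap.zero_apply] at this
      exact this.trans (qCoeff_zero' n)
    have h1 : ∑ i ∈ s, (a i : ℚ) * φ (c i) = 0 := by
      have h1 := congrArg φ h0
      rw [map_sum, map_zero] at h1
      rw [← h1]
      refine Finset.sum_congr rfl fun i _ ↦ ?_
      rw [mul_comm (c i), ← zsmul_eq_mul (c i) (a i), map_zsmul, zsmul_eq_mul]
    have h2 : ∑ i ∈ s, (z' i : ℚ) * (a i : ℚ) = 0 := by
      calc ∑ i ∈ s, (z' i : ℚ) * (a i : ℚ) = ∑ i ∈ s, (D : ℚ) * ((a i : ℚ) * φ (c i)) :=
            Finset.sum_congr rfl fun i h ↦ by rw [hz' i h]; ring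
        _ = 0 := by rw [← Finset.mul_sum, h1, mul_zero]
    exact_mod_cast h2
  have hkey : ∑ i ∈ s, z' i • t i = 0 := by
    refine Subtype.ext ?_
    simpa using key
  have := hz' i hi
  rw [ht s z' hkey i hi] at this
  simp [hD0, hφ] at this

/-- With an integral structure the integral Hecke algebra is module-finite. -/
theorem moduleFinite_heckeAlgebra_of_integral (hk : 1 ≤ k) (hI : HasIntegralStructure N k)
    (S : Set ℕ) : Module.Finite ℤ (CuspForm.heckeAlgebra N k S) := by
  have : Module.Finite ℤ (intLattice N k) :=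
    Module.Finite.iff_fg.mpr (CuspForm.intLattice_fg N k)
  have : IsAddTorsionFree 𝕊 := ⟨fun n hn a b hab ↦ smul_right_injective 𝕊
    (show (n : ℂ) ≠ 0 by exact_mod_cast hn) (by simpa [Nat.cast_smul_eq_nsmul] using hab)⟩
  have : IsAddTorsionFree (intLattice N k) :=
    Function.Injective.isAddTorsionFree (intLattice N k).subtype.toAddMonoidHom
      (intLattice N k).subtype_injective
  let res : CuspForm.heckeAlgebra N k S →ₗ[ℤ] Module.End ℤ (intLattice N k) :=
    { toFun := fun t ↦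
        { toFun := fun f ↦ ⟨(t : Module.End ℂ 𝕊) f,
            CuspForm.mem_intLattice_of_mem_heckeAlgebra hk t.2 f.2⟩
          map_add' := fun f g ↦ Subtype.ext (map_add (t : Module.End ℂ 𝕊) (f : 𝕊) g)
          map_smul' := fun c f ↦ Subtype.ext (map_zsmul (t : Module.End ℂ 𝕊) c (f : 𝕊)) }
      map_add' := fun s t ↦ rfl
      map_smul' := fun c t ↦ rfl }
  have hres : Function.Injective res := fun s t h ↦ by
    refine Subtype.ext (LinearMap.ext_on hI fun f hf ↦ ?_)
    exact congrArg Subtype.val (LinearMap.congr_fun h ⟨f, hf⟩)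
  exact Module.Finite.of_injective res hres

/-- The `ℂ`-linear map `ℂ ⊗ T → End S` is injective. -/
theorem liftBaseChange_injective (hk : 1 ≤ k) (hI : HasIntegralStructure N k) :
    Function.Injective
      ((Subalgebra.val (CuspForm.heckeAlgebra N k ∅)).toLinearMap.liftBaseChange ℂ) := by
  have := moduleFinite_heckeAlgebra_of_integral hk hI ∅
  let b := Module.Free.chooseBasis ℤ 𝕋
  have hli := linearIndependent_coe_of_integral hk hI b b.linearIndependent
  refine (injective_iff_map_eq_zero _).mpr fun x hx ↦ ?_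
  have hx' := (Algebra.TensorProduct.basis ℂ b).sum_repr x
  rw [← hx', map_sum] at hx
  rw [← hx']
  have : ∀ i, ((Algebra.TensorProduct.basis ℂ b).repr x) i = 0 :=
    Fintype.linearIndependent_iff.mp hli _ (by simpa using hx)
  simp [this]

theorem heckeVal_injective (hk : 1 ≤ k) (hI : HasIntegralStructure N k)
    {r : Type*} [Fintype r] (b : Module.Basis r ℤ 𝕋) :
    Function.Injective (fun c : r → ℂ ↦ (∑ i, c i • (coeffLin N k 1).comp (b i : Module.End ℂ 𝕊)
      : 𝕊 →ₗ[ℂ] ℂ)) := by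
  intro c d hcd
  simp only at hcd
  have hli := linearIndependent_coe_of_integral hk hI b b.linearIndependent
  have h0 : ∑ i, (c i - d i) • (b i : Module.End ℂ 𝕊) = 0 := by
    refine sum_smul_eq_zero_of_qCoeff_one hk _ _ fun f ↦ ?_
    have h := LinearMap.congr_fun hcd f
    simp only [LinearMap.sum_apply, LinearMap.smul_apply, LinearMap.comp_apply, coeffLin_apply,
      smul_eq_mul] at h
    simp only [LinearMap.sum_apply, LinearMap.smul_apply, qCoeff_sum', qCoeff_smul', sub_mul,
      Finset.sum_sub_distrib, h, sub_self]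
  exact funext fun i ↦ sub_eq_zero.mp (Fintype.linearIndependent_iff.mp hli _ h0 i)

/-- `rank T = dim S`. -/
theorem finrank_heckeAlgebra (hk : 1 ≤ k) (hI : HasIntegralStructure N k) :
    Module.finrank ℤ 𝕋 = Module.finrank ℂ 𝕊 := by
  have := moduleFinite_heckeAlgebra_of_integral hk hI ∅
  let b := Module.Free.chooseBasis ℤ 𝕋
  rw [Module.finrank_eq_card_basis b]
  apply le_antisymm
  · let Φ : (Module.Free.ChooseBasisIndex ℤ 𝕋 → ℂ) →ₗ[ℂ] (𝕊 →ₗ[ℂ] ℂ) :=
      Fintype.linearCombination ℂ fun i ↦ (coeffLin N k 1).comp (b i : Module.End ℂ 𝕊)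
    have h := LinearMap.finrank_le_finrank_of_injective (f := Φ) (by
      intro c d hcd
      refine heckeVal_injective hk hI b ?_
      simpa [Φ, Fintype.linearCombination_apply] using hcd)
    simpa [Module.finrank_linearMap] using h
  · have h := LinearMap.finrank_le_finrank_of_injective
      (f := (b.constr ℂ).symm.toLinearMap ∘ₗ heckePairing N k)
      ((b.constr ℂ).symm.injective.comp (heckePairing_injective hk))
    simpa using h

/-- The pairing `S × T → ℂ` is perfect: `S ≅ Hom_ℤ(T, ℂ)`. -/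
theorem heckePairing_bijective (hk : 1 ≤ k) (hI : HasIntegralStructure N k) :
    Function.Bijective (heckePairing N k) := by
  have := moduleFinite_heckeAlgebra_of_integral hk hI ∅
  let b := Module.Free.chooseBasis ℤ 𝕋
  have hinj := (b.constr ℂ).symm.injective.comp (heckePairing_injective (N := N) hk)
  have hsur : Function.Surjective ((b.constr ℂ).symm.toLinearMap ∘ₗ heckePairing N k) :=
    (LinearMap.injective_iff_surjective_of_finrank_eq_finrank (by
      rw [← finrank_heckeAlgebra hk hI, Module.finrank_eq_card_basis b]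
      simp)).mp hinj
  refine ⟨heckePairing_injective hk, fun φ ↦ ?_⟩
  obtain ⟨f, hf⟩ := hsur ((b.constr ℂ).symm φ)
  exact ⟨f, (b.constr ℂ).symm.injective hf⟩

/-- Forms with integral expansions are exactly `Hom_ℤ(T, ℤ)`. -/
theorem exists_intLattice_of_hom (hk : 1 ≤ k) (hI : HasIntegralStructure N k) (φ : 𝕋 →ₗ[ℤ] ℤ) :
    ∃! f : 𝕊, f ∈ intLattice N k ∧
      ∀ t : 𝕋, qCoeff ((t : Module.End ℂ 𝕊) f) 1 = (φ t : ℂ) := by
  obtain ⟨f, hf⟩ := (heckePairing_bijective hk hI).2
    ((Algebra.linearMap ℤ ℂ).comp φ)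
  have hf' : ∀ t : 𝕋, qCoeff ((t : Module.End ℂ 𝕊) f) 1 = (φ t : ℂ) := fun t ↦ by
    simpa using! LinearMap.congr_fun hf t
  refine ⟨f, ⟨(mem_intLattice_iff f).mpr fun n ↦ ?_, hf'⟩, fun g hg ↦ ?_⟩
  · rcases eq_or_ne n 0 with rfl | hn
    · exact ⟨0, by simp [qCoeff_index_zero]⟩
    · obtain ⟨t, ht, hspec⟩ := exists_heckeAlgebra_qCoeff_one (N := N) hk n hn
      exact ⟨φ ⟨t, ht⟩, by rw [← hspec f, ← hf' ⟨t, ht⟩]⟩
  · refine heckePairing_injective hk (LinearMap.ext fun t ↦ ?_)
    rw [heckePairing_apply, heckePairing_apply, hf' t, hg.2 t]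

end FLTAgent.IntStr
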