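import Fermat.Agent.IntStr.GoodFun

/-!
Conjugation of q-expansions at level one.
-/

set_option autoImplicit false

noncomputable section

open UpperHalfPlane ModularForm EisensteinSeries
open scoped MatrixGroups

namespace FLTAgent.IntStr

theorem map_smul_powerSeries (σ : ℂ →+* ℂ) (c : ℂ) (p : PowerSeries ℂ) :
    PowerSeries.map σ (c • p) = σ c • PowerSeries.map σ p := by
  ext n
  simp

theorem E_qExpansion_map (σ : ℂ →+* ℂ) {k : ℕ} (hk : 3 ≤ k) (hk2 : Even k) :
    PowerSeries.map σ (qExpansion 1 (E hk)) = qExpansion 1 (E hk) := by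
  ext n
  rw [PowerSeries.coeff_map, E_qExpansion_coeff hk hk2]
  split_ifs
  · simp
  · simp [map_ofNat, map_ratCast, map_natCast]

theorem discriminant_qExpansion_map (σ : ℂ →+* ℂ) :
    PowerSeries.map σ (qExpansion 1 (CuspForm.discriminant : ℍ → ℂ)) =
      qExpansion 1 (CuspForm.discriminant : ℍ → ℂ) := by
  let e₄ : goodSubring := ⟨⇑E₄, modularForm_mem_goodSubring one_mem_strictPeriods_SL E₄⟩
  let e₆ : goodSubring := ⟨⇑E₆, modularForm_mem_goodSubring one_mem_strictPeriods_SL E₆⟩
  let c : goodSubring := ⟨Function.const ℍ (1728 : ℂ), const_mem_goodSubring _⟩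
  let δ : goodSubring := ⟨⇑CuspForm.discriminant,
    modularForm_mem_goodSubring one_mem_strictPeriods_SL CuspForm.discriminant⟩
  have hid : c * δ = e₄ ^ 3 - e₆ ^ 2 := by
    refine Subtype.ext (funext fun z ↦ ?_)
    simp only [Subring.coe_mul, SubmonoidClass.coe_pow, AddSubgroupClass.coe_sub, Pi.mul_apply,
      Pi.sub_apply, Pi.pow_apply, e₄, e₆, c, δ, Function.const_apply, CuspForm.coe_discriminant]
    rw [discriminant_eq_E₄_cube_sub_E₆_sq]
    ring
  have hc : qE c = PowerSeries.C (1728 : ℂ) := by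
    rw [qE_apply, show ((c : goodSubring) : ℍ → ℂ) = (1728 : ℂ) • (1 : ℍ → ℂ) by
      ext z; simp [c], qExpansion_smul (f := (1 : ℍ → ℂ)) (analyticAt_of_good 1), qExpansion_one]
    ext n
    simp [PowerSeries.coeff_C]
  have h := congrArg qE hid
  rw [map_mul, map_sub, map_pow, map_pow, hc] at h
  have hσ : PowerSeries.C (1728 : ℂ) * PowerSeries.map σ (qE δ) = qE e₄ ^ 3 - qE e₆ ^ 2 := by
    have h' := congrArg (PowerSeries.map σ) h
    rw [map_mul, map_sub, map_pow, map_pow, PowerSeries.map_C, map_ofNat] at h'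
    rwa [show PowerSeries.map σ (qE e₄) = qE e₄ from E_qExpansion_map σ _ ⟨2, rfl⟩,
      show PowerSeries.map σ (qE e₆) = qE e₆ from E_qExpansion_map σ _ ⟨3, rfl⟩] at h'
  exact mul_left_cancel₀ (by simp) (hσ.trans h.symm)

/-- Conjugates of level one forms are level one forms. -/
theorem exists_galConj_levelOne (σ : ℂ →+* ℂ) (k : ℤ) (f : ModularForm 𝒮ℒ k) :
    ∃ g : ModularForm 𝒮ℒ k, qExpansion 1 g = PowerSeries.map σ (qExpansion 1 f) := by
  have h0 : f = 0 → ∃ g : ModularForm 𝒮ℒ k,
      qExpansion 1 g = PowerSeries.map σ (qExpansion 1 f) := by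
    rintro rfl
    exact ⟨0, by simp [qExpansion_zero]⟩
  rcases lt_or_ge k 0 with hk | hk
  · exact h0 (rank_zero_iff_forall_zero.mp (levelOne_neg_weight_rank_zero hk) f)
  rcases Int.even_or_odd k with hke | hko
  swap
  · exact h0 (rank_zero_iff_forall_zero.mp (levelOne_odd_weight_rank_zero hko) f)
  clear h0
  lift k to ℕ using hk
  replace hke : Even k := by exact_mod_cast hke
  induction k using Nat.strong_induction_on with
  | h k ih =>
  rcases lt_or_ge k 3 with hk3 | hk3
  · interval_cases k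
    · obtain ⟨c, hc⟩ := ModularFormClass.levelOne_weight_zero_const
        (ModularForm.mcast (b := 0) (by simp) f : ModularForm 𝒮ℒ 0)
      replace hc : (⇑f : ℍ → ℂ) = Function.const ℍ c := hc
      refine ⟨σ c • (1 : ModularForm 𝒮ℒ 0), ?_⟩
      have hf : (⇑f : ℍ → ℂ) = c • (1 : ℍ → ℂ) := by rw [hc]; ext; simp
      have h1 : ∀ a : ℂ, qExpansion 1 (a • (1 : ℍ → ℂ)) = a • (1 : PowerSeries ℂ) := fun a ↦ by
        rw [qExpansion_smul (f := (1 : ℍ → ℂ)) (analyticAt_of_good 1), qExpansion_one]
      rw [hf, h1, map_smul_powerSeries, map_one, ← h1]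
      rfl
    · simp at hke
    · refine ⟨0, ?_⟩
      rw [rank_zero_iff_forall_zero.mp levelOne_weight_two_rank_zero f]
      simp [qExpansion_zero]
  · set a₀ := (qExpansion 1 f).coeff 0
    set f₁ : ModularForm 𝒮ℒ (k : ℤ) := f - a₀ • E hk3
    have hf₁ : qExpansion 1 f₁ = qExpansion 1 f - a₀ • qExpansion 1 (E hk3) := by
      simp only [f₁, FunLike.coe_sub]
      rw [ModularForm.qExpansion_sub one_pos one_mem_strictPeriods_SL f (a₀ • E hk3),
        FunLike.coe_smul, ModularForm.qExpansion_smul one_pos one_mem_strictPeriods_SL a₀ (E hk3)]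
    have hf₁0 : (qExpansion 1 f₁).coeff 0 = 0 := by
      rw [hf₁, map_sub, PowerSeries.coeff_smul, E_qExpansion_coeff_zero hk3 hke, smul_eq_mul,
        mul_one, sub_self]
    set h := CuspForm.discriminantEquiv (toCuspForm f₁ hf₁0) with hh
    have hprod : qExpansion 1 f₁ = qExpansion 1 (CuspForm.discriminant : ℍ → ℂ) * qExpansion 1 h := by
      rw [← ModularForm.qExpansion_mul_coe one_pos one_mem_strictPeriods_SL CuspForm.discriminant h]
      congr 1
      ext z
      simp [hh, CuspForm.discriminantEquiv_apply, mul_div_cancel₀ _ (discriminant_ne_zero z),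
        toCuspForm]
      rfl
    -- conjugate the quotient
    obtain ⟨h', hh'⟩ : ∃ h' : ModularForm 𝒮ℒ ((k : ℤ) - 12),
        qExpansion 1 h' = PowerSeries.map σ (qExpansion 1 h) := by
      rcases lt_or_ge k 12 with hk12 | hk12
      · refine ⟨0, ?_⟩
        rw [rank_zero_iff_forall_zero.mp (levelOne_neg_weight_rank_zero (by omega)) h]
        simp [qExpansion_zero]
      · have heq : ((k - 12 : ℕ) : ℤ) = (k : ℤ) - 12 := by omega
        obtain ⟨g, hg⟩ := ih (k - 12) (by omega) (ModularForm.mcast heq.symm h)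
          (by rw [Nat.even_sub hk12]; simp [hke, show Even 12 from ⟨6, rfl⟩])
        exact ⟨ModularForm.mcast heq g, by rw [ModularForm.qExpansion_mcast, hg,
          ModularForm.qExpansion_mcast]⟩
    refine ⟨σ a₀ • E hk3 +
      ModularForm.mcast (by ring) ((CuspForm.toModularFormₗ CuspForm.discriminant).mul h'), ?_⟩
    rw [FunLike.coe_add, ModularForm.qExpansion_add one_pos one_mem_strictPeriods_SL
        (σ a₀ • E hk3), FunLike.coe_smul,
      ModularForm.qExpansion_smul one_pos one_mem_strictPeriods_SL (σ a₀) (E hk3),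
      ModularForm.qExpansion_mcast, ModularForm.qExpansion_mul one_pos one_mem_strictPeriods_SL]
    have hδ : qExpansion 1 (CuspForm.toModularFormₗ CuspForm.discriminant : ℍ → ℂ) =
        qExpansion 1 (CuspForm.discriminant : ℍ → ℂ) := rfl
    rw [hδ, hh']
    have hfe : qExpansion 1 f = qExpansion 1 f₁ + a₀ • qExpansion 1 (E hk3) := by
      rw [hf₁, sub_add_cancel]
    rw [hfe, map_add, map_smul_powerSeries, E_qExpansion_map σ hk3 hke, hprod, map_mul,
      discriminant_qExpansion_map, add_comm]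

end FLTAgent.IntStr
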